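import Mathlib

/-!
# S56, node [GW-EC], cell (EC3) = [EC-IND]: additive functions on finite `F_p[G]`-modules
(prefix `s56ei_`)

Basic vocabulary: an *additive function* assigns an integer to every finite-dimensional
representation of `G` over `ZMod p` (carrier in `Type`), additively on short exact sequences.
-/

set_option autoImplicit false
set_option linter.unusedSectionVars false
set_option linter.style.haveILetI false

namespace Fermat.Agent.S56

open Function

/-- An additive (Euler–Poincaré) function on the finite-dimensional representations of `G` over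
the field `k`. -/
structure s56ei_AddFn (k : Type) [Field k] (G : Type) [Group G] where
  /-- the function -/
  f : ∀ (M : Type) [AddCommGroup M] [Module k M], Representation k G M → ℤ
  /-- additivity on short exact sequences of finite-dimensional representations -/
  add : ∀ (M₁ M₂ M₃ : Type) [AddCommGroup M₁] [Module k M₁] [AddCommGroup M₂] [Module k M₂]
    [AddCommGroup M₃] [Module k M₃] [Module.Finite k M₁] [Module.Finite k M₂] [Module.Finite k M₃]
    (ρ₁ : Representation k G M₁) (ρ₂ : Representation k G M₂) (ρ₃ : Representation k G M₃)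
    (i : M₁ →ₗ[k] M₂) (q : M₂ →ₗ[k] M₃), Injective i → Surjective q →
    LinearMap.range i = LinearMap.ker q →
    (∀ g m, i (ρ₁ g m) = ρ₂ g (i m)) → (∀ g m, q (ρ₂ g m) = ρ₃ g (q m)) →
    f M₂ ρ₂ = f M₁ ρ₁ + f M₃ ρ₃

section subquot

variable {k : Type} [CommRing k] {G : Type} [Group G]

/-- The restriction of a representation to a stable submodule. -/
def s56ei_sub {U : Type} [AddCommGroup U] [Module k U] (ρ : Representation k G U)
    (W : Submodule k U) (hW : ∀ g, ∀ w ∈ W, ρ g w ∈ W) : Representation k G W where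
  toFun g := (ρ g).restrict (hW g)
  map_one' := by ext w; simp
  map_mul' g h := by ext w; simp

@[simp]
lemma s56ei_sub_apply {U : Type} [AddCommGroup U] [Module k U] (ρ : Representation k G U)
    (W : Submodule k U) (hW : ∀ g, ∀ w ∈ W, ρ g w ∈ W) (g : G) (w : W) :
    ((s56ei_sub ρ W hW g w : W) : U) = ρ g w := rfl

/-- The representation induced on the quotient by a stable submodule. -/
def s56ei_quot {U : Type} [AddCommGroup U] [Module k U] (ρ : Representation k G U)
    (W : Submodule k U) (hW : ∀ g, ∀ w ∈ W, ρ g w ∈ W) : Representation k G (U ⧸ W) where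
  toFun g := W.mapQ W (ρ g) (fun w hw => hW g w hw)
  map_one' := by
    ext w; simp
  map_mul' g h := by
    ext w; simp

@[simp]
lemma s56ei_quot_mk {U : Type} [AddCommGroup U] [Module k U] (ρ : Representation k G U)
    (W : Submodule k U) (hW : ∀ g, ∀ w ∈ W, ρ g w ∈ W) (g : G) (u : U) :
    s56ei_quot ρ W hW g (Submodule.Quotient.mk u) = Submodule.Quotient.mk (ρ g u) := rfl

end subquot

section basics

variable {k : Type} [Field k] {G : Type} [Group G]

variable (F : s56ei_AddFn k G)

/-- The value on a zero module vanishes. -/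
lemma s56ei_zero (M : Type) [AddCommGroup M] [Module k M] [Subsingleton M]
    (ρ : Representation k G M) : F.f M ρ = 0 := by
  have h := F.add M M M ρ ρ ρ 0 0 (fun a b _ => Subsingleton.elim a b)
    (fun b => ⟨0, Subsingleton.elim _ _⟩)
    (by ext x; simp [Subsingleton.elim x 0])
    (fun g m => Subsingleton.elim _ _) (fun g m => Subsingleton.elim _ _)
  linarith

/-- Invariance under equivariant isomorphisms. -/
lemma s56ei_iso {M M' : Type} [AddCommGroup M] [Module k M] [AddCommGroup M'] [Module k M']
    [Module.Finite k M] (ρ : Representation k G M) (ρ' : Representation k G M')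
    (e : M ≃ₗ[k] M') (he : ∀ g m, e (ρ g m) = ρ' g (e m)) : F.f M ρ = F.f M' ρ' := by
  haveI : Module.Finite k M' := Module.Finite.equiv e
  -- 0 → M → M' → 0
  have h := F.add M M' PUnit ρ ρ' (1 : G →* (PUnit →ₗ[k] PUnit)) e.toLinearMap 0 e.injective
    (fun b => ⟨0, Subsingleton.elim _ _⟩)
    (by
      ext x
      simp only [LinearMap.mem_range, LinearEquiv.coe_coe, LinearMap.mem_ker, LinearMap.zero_apply,
        iff_true]
      exact ⟨e.symm x, by simp⟩)
    he (fun g m => Subsingleton.elim _ _)
  rw [h, s56ei_zero F PUnit, add_zero]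

/-- Additivity along an equivariant linear map: `f(U) = f(ker T) + f(range T)`. -/
lemma s56ei_ker_range {U U' : Type} [AddCommGroup U] [Module k U] [AddCommGroup U'] [Module k U']
    [Module.Finite k U] [Module.Finite k U'] (ρ : Representation k G U)
    (ρ' : Representation k G U') (T : U →ₗ[k] U') (hT : ∀ g u, T (ρ g u) = ρ' g (T u)) :
    F.f U ρ = F.f (LinearMap.ker T) (s56ei_sub ρ (LinearMap.ker T) (fun g w hw => by
        rw [LinearMap.mem_ker] at hw ⊢; rw [hT, hw, map_zero]))
      + F.f (LinearMap.range T) (s56ei_sub ρ' (LinearMap.range T) (fun g w hw => by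
        obtain ⟨u, rfl⟩ := hw; exact ⟨ρ g u, hT g u⟩)) := by
  refine F.add _ _ _ _ _ _ (LinearMap.ker T).subtype T.rangeRestrict
    (Submodule.subtype_injective _) T.surjective_rangeRestrict ?_ (fun g m => rfl) ?_
  · rw [Submodule.range_subtype, LinearMap.ker_rangeRestrict]
  · intro g m
    apply Subtype.ext
    simp [hT]

/-- Additivity for a stable submodule: `f(U) = f(W) + f(U/W)`. -/
lemma s56ei_sub_quot {U : Type} [AddCommGroup U] [Module k U] [Module.Finite k U]
    (ρ : Representation k G U) (W : Submodule k U) (hW : ∀ g, ∀ w ∈ W, ρ g w ∈ W) :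
    F.f U ρ = F.f W (s56ei_sub ρ W hW) + F.f (U ⧸ W) (s56ei_quot ρ W hW) := by
  refine F.add _ _ _ _ _ _ W.subtype W.mkQ (Submodule.subtype_injective _)
    (Submodule.mkQ_surjective _) ?_ (fun g m => rfl) (fun g m => rfl)
  rw [Submodule.range_subtype, Submodule.ker_mkQ]

/-- **The 2-periodic lemma**: if `a : U₁ → U₂`, `b : U₂ → U₁` are equivariant with
`ker a = range b` and `ker b = range a` then `f(U₁) = f(U₂)`. -/
lemma s56ei_periodic {U₁ U₂ : Type} [AddCommGroup U₁] [Module k U₁] [AddCommGroup U₂]
    [Module k U₂] [Module.Finite k U₁] [Module.Finite k U₂] (ρ₁ : Representation k G U₁)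
    (ρ₂ : Representation k G U₂) (a : U₁ →ₗ[k] U₂) (b : U₂ →ₗ[k] U₁)
    (ha : ∀ g u, a (ρ₁ g u) = ρ₂ g (a u)) (hb : ∀ g u, b (ρ₂ g u) = ρ₁ g (b u))
    (hab : LinearMap.ker a = LinearMap.range b) (hba : LinearMap.ker b = LinearMap.range a) :
    F.f U₁ ρ₁ = F.f U₂ ρ₂ := by
  have h1 := s56ei_ker_range F ρ₁ ρ₂ a ha
  have h2 := s56ei_ker_range F ρ₂ ρ₁ b hb
  -- ker a = range b and ker b = range a as representations
  have e1 : F.f (LinearMap.ker a) (s56ei_sub ρ₁ (LinearMap.ker a) (fun g w hw => by
        rw [LinearMap.mem_ker] at hw ⊢; rw [ha, hw, map_zero]))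
      = F.f (LinearMap.range b) (s56ei_sub ρ₁ (LinearMap.range b) (fun g w hw => by
        obtain ⟨u, rfl⟩ := hw; exact ⟨ρ₂ g u, hb g u⟩)) :=
    s56ei_iso F _ _ (LinearEquiv.ofEq _ _ hab) (fun g m => rfl)
  have e2 : F.f (LinearMap.ker b) (s56ei_sub ρ₂ (LinearMap.ker b) (fun g w hw => by
        rw [LinearMap.mem_ker] at hw ⊢; rw [hb, hw, map_zero]))
      = F.f (LinearMap.range a) (s56ei_sub ρ₂ (LinearMap.range a) (fun g w hw => by
        obtain ⟨u, rfl⟩ := hw; exact ⟨ρ₁ g u, ha g u⟩)) :=
    s56ei_iso F _ _ (LinearEquiv.ofEq _ _ hba) (fun g m => rfl)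
  rw [h1, h2, e1, e2, add_comm]

end basics

end Fermat.Agent.S56
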