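import Mathlib
import Fermat.Agent.S56.GW.EC.Ind.Defs

/-!
# (EC3) [EC-IND], part (3c): Brauer–Nesbitt for lattices (prefix `s56ei_`)

For `G`-lattices `Λ₁ ↪ Λ₂` (finitely generated abelian groups without `p`-torsion, equivariant
injection with finite cokernel) and any additive function `F` on `F_p[G]`-modules:
`F(Λ₁/p) = F(Λ₂/p)`.
-/

set_option autoImplicit false
set_option linter.unusedSectionVars false
set_option linter.style.haveILetI false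

namespace Fermat.Agent.S56

open Function

section red

variable (p : ℕ) [Fact p.Prime]

/-- The submodule `pΛ`. -/
def s56ei_pSub (Λ : Type) [AddCommGroup Λ] : Submodule ℤ Λ :=
  LinearMap.range (LinearMap.lsmul ℤ Λ (p : ℤ))

lemma s56ei_mem_pSub {Λ : Type} [AddCommGroup Λ] (x : Λ) :
    x ∈ s56ei_pSub p Λ ↔ ∃ y : Λ, (p : ℤ) • y = x := by
  simp [s56ei_pSub, LinearMap.mem_range]

/-- The reduction `Λ/pΛ`. -/
def s56ei_Red (Λ : Type) [AddCommGroup Λ] : Type := Λ ⧸ s56ei_pSub p Λ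

instance s56ei_Red_acg (Λ : Type) [AddCommGroup Λ] : AddCommGroup (s56ei_Red p Λ) :=
  inferInstanceAs (AddCommGroup (Λ ⧸ s56ei_pSub p Λ))

/-- The projection `Λ → Λ/pΛ`. -/
def s56ei_mk {Λ : Type} [AddCommGroup Λ] : Λ →+ s56ei_Red p Λ :=
  (s56ei_pSub p Λ).mkQ.toAddMonoidHom

lemma s56ei_mk_surjective {Λ : Type} [AddCommGroup Λ] : Surjective (s56ei_mk p (Λ := Λ)) :=
  Submodule.mkQ_surjective _

lemma s56ei_mk_eq_zero {Λ : Type} [AddCommGroup Λ] (x : Λ) :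
    s56ei_mk p x = 0 ↔ ∃ y : Λ, (p : ℤ) • y = x := by
  rw [← s56ei_mem_pSub]
  exact Submodule.Quotient.mk_eq_zero _

lemma s56ei_Red_nsmul {Λ : Type} [AddCommGroup Λ] (x : s56ei_Red p Λ) : p • x = 0 := by
  obtain ⟨y, rfl⟩ := s56ei_mk_surjective p x
  rw [← map_nsmul, s56ei_mk_eq_zero]
  exact ⟨y, by simp⟩

instance s56ei_Red_mod (Λ : Type) [AddCommGroup Λ] : Module (ZMod p) (s56ei_Red p Λ) :=
  AddCommGroup.zmodModule (s56ei_Red_nsmul p)

instance s56ei_Red_fin (Λ : Type) [AddCommGroup Λ] [Module.Finite ℤ Λ] :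
    Module.Finite (ZMod p) (s56ei_Red p Λ) := by
  haveI : Module.Finite ℤ (s56ei_Red p Λ) :=
    inferInstanceAs (Module.Finite ℤ (Λ ⧸ s56ei_pSub p Λ))
  exact Module.Finite.of_restrictScalars_finite ℤ (ZMod p) _

/-- The map induced on reductions by an additive map. -/
def s56ei_redMap {Λ₁ Λ₂ : Type} [AddCommGroup Λ₁] [AddCommGroup Λ₂] (φ : Λ₁ →ₗ[ℤ] Λ₂) :
    s56ei_Red p Λ₁ →ₗ[ZMod p] s56ei_Red p Λ₂ :=
  AddMonoidHom.toZModLinearMap p
    ((s56ei_pSub p Λ₁).mapQ (s56ei_pSub p Λ₂) φ (by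
      intro x hx
      obtain ⟨y, rfl⟩ := (s56ei_mem_pSub p x).1 hx
      exact (s56ei_mem_pSub p _).2 ⟨φ y, by simp⟩)).toAddMonoidHom

@[simp]
lemma s56ei_redMap_mk {Λ₁ Λ₂ : Type} [AddCommGroup Λ₁] [AddCommGroup Λ₂] (φ : Λ₁ →ₗ[ℤ] Λ₂)
    (x : Λ₁) : s56ei_redMap p φ (s56ei_mk p x) = s56ei_mk p (φ x) := rfl

lemma s56ei_redMap_id {Λ : Type} [AddCommGroup Λ] :
    s56ei_redMap p (LinearMap.id : Λ →ₗ[ℤ] Λ) = LinearMap.id := by
  ext x
  obtain ⟨y, rfl⟩ := s56ei_mk_surjective p x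
  simp

lemma s56ei_redMap_comp {Λ₁ Λ₂ Λ₃ : Type} [AddCommGroup Λ₁] [AddCommGroup Λ₂] [AddCommGroup Λ₃]
    (φ : Λ₁ →ₗ[ℤ] Λ₂) (ψ : Λ₂ →ₗ[ℤ] Λ₃) :
    s56ei_redMap p (ψ ∘ₗ φ) = s56ei_redMap p ψ ∘ₗ s56ei_redMap p φ := by
  ext x
  obtain ⟨y, rfl⟩ := s56ei_mk_surjective p x
  simp

variable {G : Type} [Group G]

/-- The representation of `G` on `Λ/pΛ`. -/
def s56ei_redRep {Λ : Type} [AddCommGroup Λ] (ρ : Representation ℤ G Λ) :
    Representation (ZMod p) G (s56ei_Red p Λ) where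
  toFun g := s56ei_redMap p (ρ g)
  map_one' := by rw [map_one]; exact s56ei_redMap_id p
  map_mul' g h := by rw [map_mul]; exact s56ei_redMap_comp p _ _

@[simp]
lemma s56ei_redRep_mk {Λ : Type} [AddCommGroup Λ] (ρ : Representation ℤ G Λ) (g : G) (x : Λ) :
    s56ei_redRep p ρ g (s56ei_mk p x) = s56ei_mk p (ρ g x) := rfl

end red

section bn

variable (p : ℕ) [Fact p.Prime] {G : Type} [Group G] (F : s56ei_AddFn (ZMod p) G)

/-- **Direct case**: `pΛ₂ ⊆ φ(Λ₁)`. -/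
lemma s56ei_bn_direct {Λ₁ Λ₂ : Type} [AddCommGroup Λ₁] [AddCommGroup Λ₂]
    [Module.Finite ℤ Λ₁] [Module.Finite ℤ Λ₂] (ρ₁ : Representation ℤ G Λ₁)
    (ρ₂ : Representation ℤ G Λ₂) (htf : ∀ y : Λ₂, (p : ℤ) • y = 0 → y = 0)
    (φ : Λ₁ →ₗ[ℤ] Λ₂) (hφ : Injective φ) (heq : ∀ g x, φ (ρ₁ g x) = ρ₂ g (φ x))
    (hp : s56ei_pSub p Λ₂ ≤ LinearMap.range φ) :
    F.f _ (s56ei_redRep p ρ₁) = F.f _ (s56ei_redRep p ρ₂) := by
  -- ψ = φ⁻¹ ∘ p
  have hex : ∀ y : Λ₂, ∃ x : Λ₁, φ x = (p : ℤ) • y := fun y =>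
    hp ((s56ei_mem_pSub p _).2 ⟨y, rfl⟩)
  choose ψ0 hψ0 using hex
  have hpp : ∀ y : Λ₂, (p : ℤ) • y = 0 → y = 0 := htf
  have hcancel : ∀ y y' : Λ₂, (p : ℤ) • y = (p : ℤ) • y' → y = y' := by
    intro y y' h
    have : (p : ℤ) • (y - y') = 0 := by rw [smul_sub, h, sub_self]
    exact sub_eq_zero.1 (hpp _ this)
  let ψ : Λ₂ →ₗ[ℤ] Λ₁ :=
    { toFun := ψ0
      map_add' := fun y y' => hφ (by rw [map_add, hψ0, hψ0, hψ0, smul_add])
      map_smul' := fun c y => hφ (by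
        rw [map_smul, hψ0, hψ0, RingHom.id_apply, smul_comm]) }
  have hφψ : ∀ y, φ (ψ y) = (p : ℤ) • y := hψ0
  have hψφ : ∀ x, ψ (φ x) = (p : ℤ) • x := fun x => hφ (by rw [hφψ, map_smul])
  have heqψ : ∀ g y, ψ (ρ₂ g y) = ρ₁ g (ψ y) := fun g y => hφ (by
    rw [hφψ, heq, hφψ, map_smul])
  refine s56ei_periodic F _ _ (s56ei_redMap p φ) (s56ei_redMap p ψ) ?_ ?_ ?_ ?_
  · intro g u
    obtain ⟨x, rfl⟩ := s56ei_mk_surjective p u
    simp [heq]
  · intro g u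
    obtain ⟨x, rfl⟩ := s56ei_mk_surjective p u
    simp [heqψ]
  · apply le_antisymm
    · intro u hu
      obtain ⟨x, rfl⟩ := s56ei_mk_surjective p u
      rw [LinearMap.mem_ker, s56ei_redMap_mk, s56ei_mk_eq_zero] at hu
      obtain ⟨y, hy⟩ := hu
      refine ⟨s56ei_mk p y, ?_⟩
      rw [s56ei_redMap_mk]
      congr 1
      exact hφ (by rw [hφψ, hy])
    · rintro u ⟨v, rfl⟩
      obtain ⟨y, rfl⟩ := s56ei_mk_surjective p v
      rw [LinearMap.mem_ker, s56ei_redMap_mk, s56ei_redMap_mk, hφψ, s56ei_mk_eq_zero]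
      exact ⟨y, rfl⟩
  · apply le_antisymm
    · intro u hu
      obtain ⟨y, rfl⟩ := s56ei_mk_surjective p u
      rw [LinearMap.mem_ker, s56ei_redMap_mk, s56ei_mk_eq_zero] at hu
      obtain ⟨x, hx⟩ := hu
      refine ⟨s56ei_mk p x, ?_⟩
      rw [s56ei_redMap_mk]
      congr 1
      apply hcancel
      rw [← hφψ y, ← hx, map_smul]
    · rintro u ⟨v, rfl⟩
      obtain ⟨x, rfl⟩ := s56ei_mk_surjective p v
      rw [LinearMap.mem_ker, s56ei_redMap_mk, s56ei_redMap_mk, hψφ, s56ei_mk_eq_zero]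
      exact ⟨x, rfl⟩

/-- **Prime-to-`p` case**: `φ(Λ₁) + pΛ₂ = Λ₂` with finite cokernel. -/
lemma s56ei_bn_coprime {Λ₁ Λ₂ : Type} [AddCommGroup Λ₁] [AddCommGroup Λ₂]
    [Module.Finite ℤ Λ₁] [Module.Finite ℤ Λ₂] (ρ₁ : Representation ℤ G Λ₁)
    (ρ₂ : Representation ℤ G Λ₂) (htf : ∀ y : Λ₂, (p : ℤ) • y = 0 → y = 0)
    (φ : Λ₁ →ₗ[ℤ] Λ₂) (hφ : Injective φ) (heq : ∀ g x, φ (ρ₁ g x) = ρ₂ g (φ x))
    [Finite (Λ₂ ⧸ LinearMap.range φ)]
    (hp : LinearMap.range φ ⊔ s56ei_pSub p Λ₂ = ⊤) :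
    F.f _ (s56ei_redRep p ρ₁) = F.f _ (s56ei_redRep p ρ₂) := by
  have hdec : ∀ y : Λ₂, ∃ x : Λ₁, ∃ z : Λ₂, y = φ x + (p : ℤ) • z := by
    intro y
    have hy : y ∈ LinearMap.range φ ⊔ s56ei_pSub p Λ₂ := by rw [hp]; trivial
    obtain ⟨a, ⟨x, rfl⟩, b, hb, rfl⟩ := Submodule.mem_sup.1 hy
    obtain ⟨z, rfl⟩ := (s56ei_mem_pSub p b).1 hb
    exact ⟨x, z, rfl⟩
  -- multiplication by p on the finite quotient is surjective, hence injective
  let Q := Λ₂ ⧸ LinearMap.range φ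
  let mp : Q → Q := fun q => (p : ℤ) • q
  have hsurj : Surjective mp := by
    intro q
    obtain ⟨y, rfl⟩ := Submodule.Quotient.mk_surjective _ q
    obtain ⟨x, z, rfl⟩ := hdec y
    refine ⟨Submodule.Quotient.mk z, ?_⟩
    show (p : ℤ) • (Submodule.Quotient.mk z : Q) = _
    rw [← Submodule.Quotient.mk_smul, Submodule.Quotient.eq]
    have : (p : ℤ) • z - (φ x + (p : ℤ) • z) = φ (-x) := by rw [map_neg]; abel
    rw [this]
    exact ⟨-x, rfl⟩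
  have hinj : Injective mp := Finite.injective_iff_surjective.2 hsurj
  have hkey : ∀ y : Λ₂, (p : ℤ) • y ∈ LinearMap.range φ → y ∈ LinearMap.range φ := by
    intro y hy
    have h0 : mp (Submodule.Quotient.mk y) = mp 0 := by
      show (p : ℤ) • (Submodule.Quotient.mk y : Q) = (p : ℤ) • (0 : Q)
      rw [smul_zero, ← Submodule.Quotient.mk_smul]
      exact (Submodule.Quotient.mk_eq_zero _).2 hy
    exact (Submodule.Quotient.mk_eq_zero _).1 (hinj h0)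
  have hcancel : ∀ y y' : Λ₂, (p : ℤ) • y = (p : ℤ) • y' → y = y' := by
    intro y y' h
    have : (p : ℤ) • (y - y') = 0 := by rw [smul_sub, h, sub_self]
    exact sub_eq_zero.1 (htf _ this)
  have hbij : Bijective (s56ei_redMap p φ) := by
    constructor
    · rw [← LinearMap.ker_eq_bot, eq_bot_iff]
      intro u hu
      obtain ⟨x, rfl⟩ := s56ei_mk_surjective p u
      rw [LinearMap.mem_ker, s56ei_redMap_mk, s56ei_mk_eq_zero] at hu
      obtain ⟨y, hy⟩ := hu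
      obtain ⟨x', rfl⟩ := hkey y ⟨x, hy.symm⟩
      rw [Submodule.mem_bot, s56ei_mk_eq_zero]
      exact ⟨x', hφ (by rw [map_smul, hy])⟩
    · intro u
      obtain ⟨y, rfl⟩ := s56ei_mk_surjective p u
      obtain ⟨x, z, rfl⟩ := hdec y
      refine ⟨s56ei_mk p x, ?_⟩
      rw [s56ei_redMap_mk, map_add]
      have : s56ei_mk p ((p : ℤ) • z) = 0 := (s56ei_mk_eq_zero p _).2 ⟨z, rfl⟩
      rw [this, add_zero]
  refine s56ei_iso F _ _ (LinearEquiv.ofBijective (s56ei_redMap p φ) hbij) ?_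
  intro g u
  obtain ⟨x, rfl⟩ := s56ei_mk_surjective p u
  simp [heq]

/-- Auxiliary form of Brauer–Nesbitt, by strong induction on the index. -/
lemma s56ei_bn_aux : ∀ (n : ℕ) (Λ₁ Λ₂ : Type) [AddCommGroup Λ₁] [AddCommGroup Λ₂]
    [Module.Finite ℤ Λ₁] [Module.Finite ℤ Λ₂] (ρ₁ : Representation ℤ G Λ₁)
    (ρ₂ : Representation ℤ G Λ₂) (_ : ∀ y : Λ₂, (p : ℤ) • y = 0 → y = 0)
    (φ : Λ₁ →ₗ[ℤ] Λ₂) (_ : Injective φ) (_ : ∀ g x, φ (ρ₁ g x) = ρ₂ g (φ x))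
    [Finite (Λ₂ ⧸ LinearMap.range φ)], Nat.card (Λ₂ ⧸ LinearMap.range φ) = n →
    F.f _ (s56ei_redRep p ρ₁) = F.f _ (s56ei_redRep p ρ₂) := by
  intro n
  induction n using Nat.strong_induction_on with
  | _ n ih =>
    intro Λ₁ Λ₂ _ _ _ _ ρ₁ ρ₂ htf φ hφ heq _ hn
    by_cases h1 : s56ei_pSub p Λ₂ ≤ LinearMap.range φ
    · exact s56ei_bn_direct p F ρ₁ ρ₂ htf φ hφ heq h1
    by_cases h2 : LinearMap.range φ ⊔ s56ei_pSub p Λ₂ = ⊤
    · exact s56ei_bn_coprime p F ρ₁ ρ₂ htf φ hφ heq h2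
    -- the intermediate lattice
    set Λ' : Submodule ℤ Λ₂ := LinearMap.range φ ⊔ s56ei_pSub p Λ₂ with hΛ'
    have hstab : ∀ g, ∀ w ∈ Λ', ρ₂ g w ∈ Λ' := by
      intro g w hw
      obtain ⟨a, ⟨x, rfl⟩, b, hb, rfl⟩ := Submodule.mem_sup.1 hw
      obtain ⟨z, rfl⟩ := (s56ei_mem_pSub p b).1 hb
      rw [map_add]
      refine Submodule.add_mem _ (Submodule.mem_sup_left ⟨ρ₁ g x, heq g x⟩)
        (Submodule.mem_sup_right ((s56ei_mem_pSub p _).2 ⟨ρ₂ g z, by rw [map_smul]⟩))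
    let ρ' : Representation ℤ G Λ' := s56ei_sub ρ₂ Λ' hstab
    let φ' : Λ₁ →ₗ[ℤ] Λ' := LinearMap.codRestrict Λ' φ (fun x => Submodule.mem_sup_left ⟨x, rfl⟩)
    have hφ' : Injective φ' := fun x y h => hφ (congrArg Subtype.val h)
    have hrange : ∀ w : Λ', w ∈ LinearMap.range φ' ↔ (w : Λ₂) ∈ LinearMap.range φ := by
      intro w
      constructor
      · rintro ⟨x, rfl⟩; exact ⟨x, rfl⟩
      · rintro ⟨x, hx⟩; exact ⟨x, Subtype.ext hx⟩
    -- the map of quotients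
    let j : (Λ' ⧸ LinearMap.range φ') →ₗ[ℤ] (Λ₂ ⧸ LinearMap.range φ) :=
      Submodule.mapQ _ _ Λ'.subtype (fun w hw => (hrange w).1 hw)
    have hjmk : ∀ w : Λ', j (Submodule.Quotient.mk w) = Submodule.Quotient.mk (w : Λ₂) :=
      fun w => rfl
    have hj : Injective j := by
      rw [← LinearMap.ker_eq_bot, eq_bot_iff]
      intro u hu
      obtain ⟨w, rfl⟩ := Submodule.Quotient.mk_surjective _ u
      rw [LinearMap.mem_ker, hjmk, Submodule.Quotient.mk_eq_zero] at hu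
      rw [Submodule.mem_bot, Submodule.Quotient.mk_eq_zero]
      exact (hrange w).2 hu
    have hjns : ¬ Surjective j := by
      intro hs
      apply h2
      rw [eq_top_iff]
      intro y _
      obtain ⟨u, hu⟩ := hs (Submodule.Quotient.mk y)
      obtain ⟨w, rfl⟩ := Submodule.Quotient.mk_surjective _ u
      rw [hjmk, Submodule.Quotient.eq] at hu
      have : y = (w : Λ₂) - ((w : Λ₂) - y) := by abel
      rw [this]
      exact Submodule.sub_mem _ w.2 (Submodule.mem_sup_left hu)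
    haveI : Finite (Λ' ⧸ LinearMap.range φ') := Finite.of_injective j hj
    have hlt : Nat.card (Λ' ⧸ LinearMap.range φ') < n := by
      rw [← hn]
      haveI := Fintype.ofFinite (Λ' ⧸ LinearMap.range φ')
      haveI := Fintype.ofFinite (Λ₂ ⧸ LinearMap.range φ)
      rw [Nat.card_eq_fintype_card, Nat.card_eq_fintype_card]
      exact Fintype.card_lt_of_injective_not_surjective j hj hjns
    have step1 : F.f _ (s56ei_redRep p ρ₁) = F.f _ (s56ei_redRep p ρ') :=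
      ih _ hlt Λ₁ Λ' ρ₁ ρ' (fun y hy => Subtype.ext (htf y (by
        have := congrArg Subtype.val hy
        simpa using this))) φ' hφ' (fun g x => Subtype.ext (heq g x)) rfl
    have step2 : F.f _ (s56ei_redRep p ρ') = F.f _ (s56ei_redRep p ρ₂) := by
      refine s56ei_bn_direct p F ρ' ρ₂ htf Λ'.subtype (Submodule.subtype_injective _)
        (fun g x => rfl) ?_
      rw [Submodule.range_subtype]
      exact le_sup_right
    rw [step1, step2]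

/-- **Brauer–Nesbitt for lattices**: for an equivariant injection `φ : Λ₁ → Λ₂` of finitely
generated abelian groups with `G`-action, `Λ₂` without `p`-torsion, with finite cokernel, the
reductions mod `p` have the same value under every additive function. -/
theorem s56ei_bn {Λ₁ Λ₂ : Type} [AddCommGroup Λ₁] [AddCommGroup Λ₂]
    [Module.Finite ℤ Λ₁] [Module.Finite ℤ Λ₂] (ρ₁ : Representation ℤ G Λ₁)
    (ρ₂ : Representation ℤ G Λ₂) (htf : ∀ y : Λ₂, (p : ℤ) • y = 0 → y = 0)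
    (φ : Λ₁ →ₗ[ℤ] Λ₂) (hφ : Injective φ) (heq : ∀ g x, φ (ρ₁ g x) = ρ₂ g (φ x))
    [Finite (Λ₂ ⧸ LinearMap.range φ)] :
    F.f _ (s56ei_redRep p ρ₁) = F.f _ (s56ei_redRep p ρ₂) :=
  s56ei_bn_aux p F _ Λ₁ Λ₂ ρ₁ ρ₂ htf φ hφ heq rfl

end bn

end Fermat.Agent.S56
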