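import Mathlib
import Fermat.Agent.S56.GW.EC.Ind.BN

/-!
# (EC3) [EC-IND]: permutation modules (prefix `s56ei_`)

* `s56ei_permM X ρ` : the representation on `X → M`, `(g • v) x = ρ g (v (g⁻¹ • x))`;
* `s56ei_perm R X` : the permutation representation on `X → R`;
* `Λ/pΛ ≅ (X → ZMod p)` for `Λ = (X → ℤ)`;
* additivity of an additive function over disjoint unions;
* an invariant integer matrix which is injective over `ℚ` gives equal values (Brauer–Nesbitt).
-/

set_option autoImplicit false
set_option linter.unusedSectionVars false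
set_option linter.style.haveILetI false

namespace Fermat.Agent.S56

open Function

section perm

variable {R : Type} [CommRing R] {G : Type} [Group G]

/-- The representation of `G` on `X → M`: `(g • v) x = ρ g (v (g⁻¹ • x))`. -/
def s56ei_permM (X : Type) [MulAction G X] {M : Type} [AddCommGroup M] [Module R M]
    (ρ : Representation R G M) : Representation R G (X → M) where
  toFun g :=
    { toFun := fun v x => ρ g (v (g⁻¹ • x))
      map_add' := fun v w => by ext x; simp
      map_smul' := fun c v => by ext x; simp }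
  map_one' := by ext v x; simp
  map_mul' g h := by
    ext v x
    simp [mul_smul]

@[simp]
lemma s56ei_permM_apply (X : Type) [MulAction G X] {M : Type} [AddCommGroup M] [Module R M]
    (ρ : Representation R G M) (g : G) (v : X → M) (x : X) :
    s56ei_permM X ρ g v x = ρ g (v (g⁻¹ • x)) := rfl

variable (R) in
/-- The permutation representation of `G` on `X → R`. -/
def s56ei_perm (X : Type) [MulAction G X] : Representation R G (X → R) :=
  s56ei_permM X (Representation.trivial R G R)

@[simp]
lemma s56ei_perm_apply (X : Type) [MulAction G X] (g : G) (v : X → R) (x : X) :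
    s56ei_perm R X g v x = v (g⁻¹ • x) := rfl

end perm

section red

variable (p : ℕ) [Fact p.Prime] {G : Type} [Group G]

/-- Reduction mod `p` of integer-valued functions. -/
def s56ei_castHom (X : Type) : (X → ℤ) →+ (X → ZMod p) where
  toFun v x := (v x : ZMod p)
  map_zero' := by ext x; simp
  map_add' v w := by ext x; simp

lemma s56ei_castHom_surjective (X : Type) : Surjective (s56ei_castHom p X) := by
  intro w
  refine ⟨fun x => ((w x).val : ℤ), ?_⟩
  ext x
  simp [s56ei_castHom]

lemma s56ei_castHom_eq_zero (X : Type) (v : X → ℤ) :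
    s56ei_castHom p X v = 0 ↔ ∃ w : X → ℤ, (p : ℤ) • w = v := by
  constructor
  · intro h
    have h' : ∀ x, ((p : ℤ) ∣ v x) := fun x => by
      have := congrFun h x
      simpa [s56ei_castHom, ZMod.intCast_zmod_eq_zero_iff_dvd] using this
    choose w hw using h'
    exact ⟨w, by ext x; simp [hw x]⟩
  · rintro ⟨w, rfl⟩
    ext x
    simp [s56ei_castHom]

/-- `Λ/pΛ ≅ (X → ZMod p)` for `Λ = (X → ℤ)`. -/
noncomputable def s56ei_redPermEquiv (X : Type) :
    s56ei_Red p (X → ℤ) ≃ₗ[ZMod p] (X → ZMod p) := by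
  let f0 : (X → ℤ) →ₗ[ℤ] (X → ZMod p) := (s56ei_castHom p X).toIntLinearMap
  let f1 : s56ei_Red p (X → ℤ) →ₗ[ℤ] (X → ZMod p) :=
    (s56ei_pSub p (X → ℤ)).liftQ f0 (by
      intro v hv
      obtain ⟨w, rfl⟩ := (s56ei_mem_pSub p v).1 hv
      exact (s56ei_castHom_eq_zero p X _).2 ⟨w, rfl⟩)
  refine LinearEquiv.ofBijective (AddMonoidHom.toZModLinearMap p f1.toAddMonoidHom) ⟨?_, ?_⟩
  · intro a b hab
    obtain ⟨v, rfl⟩ := s56ei_mk_surjective p a
    obtain ⟨w, rfl⟩ := s56ei_mk_surjective p b
    have h1 : s56ei_castHom p X v = s56ei_castHom p X w := hab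
    have h2 : s56ei_castHom p X (v - w) = 0 := by rw [map_sub, h1, sub_self]
    obtain ⟨u, hu⟩ := (s56ei_castHom_eq_zero p X _).1 h2
    have : s56ei_mk p (v - w) = 0 := (s56ei_mk_eq_zero p _).2 ⟨u, hu⟩
    rw [map_sub, sub_eq_zero] at this
    exact this
  · intro w
    obtain ⟨v, rfl⟩ := s56ei_castHom_surjective p X w
    exact ⟨s56ei_mk p v, rfl⟩

@[simp]
lemma s56ei_redPermEquiv_mk (X : Type) (v : X → ℤ) (x : X) :
    s56ei_redPermEquiv p X (s56ei_mk p v) x = (v x : ZMod p) := rfl

/-- The reduction of the integral permutation lattice has the value of the permutation module. -/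
lemma s56ei_red_perm (F : s56ei_AddFn (ZMod p) G) (X : Type) [Finite X] [MulAction G X] :
    F.f _ (s56ei_redRep p (s56ei_perm ℤ X)) = F.f _ (s56ei_perm (ZMod p) X) := by
  haveI := Fintype.ofFinite X
  refine s56ei_iso F _ _ (s56ei_redPermEquiv p X) ?_
  intro g u
  obtain ⟨v, rfl⟩ := s56ei_mk_surjective p u
  ext x
  simp

end red

section matrix

variable (p : ℕ) [Fact p.Prime] {G : Type} [Group G]

/-- Clearing the denominators of finitely many rational numbers. -/
lemma s56ei_clear_den {X : Type} [Fintype X] (v : X → ℚ) :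
    ∃ N : ℕ, 0 < N ∧ ∃ w : X → ℤ, ∀ x, (N : ℚ) * v x = w x := by
  classical
  have key : ∀ s : Finset X, ∃ N : ℕ, 0 < N ∧ ∀ x ∈ s, ∃ z : ℤ, (N : ℚ) * v x = z := by
    intro s
    induction s using Finset.induction_on with
    | empty => exact ⟨1, one_pos, fun x hx => absurd hx (Finset.notMem_empty x)⟩
    | insert a s _ ih =>
      obtain ⟨N, hN, h⟩ := ih
      refine ⟨N * (v a).den, Nat.mul_pos hN (v a).den_pos, ?_⟩
      intro x hx
      rcases Finset.mem_insert.1 hx with rfl | hx
      · refine ⟨N * (v x).num, ?_⟩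
        push_cast
        rw [mul_assoc, mul_comm ((v x).den : ℚ), Rat.mul_den_eq_num]
      · obtain ⟨z, hz⟩ := h x hx
        refine ⟨(v a).den * z, ?_⟩
        push_cast
        rw [← hz]; ring
  obtain ⟨N, hN, h⟩ := key Finset.univ
  choose w hw using fun x => h x (Finset.mem_univ x)
  exact ⟨N, hN, w, hw⟩

/-- The integral linear map of a matrix. -/
def s56ei_matMap {X X' : Type} [Fintype X] (A : X' → X → ℤ) : (X → ℤ) →ₗ[ℤ] (X' → ℤ) where
  toFun v x' := ∑ x, A x' x * v x
  map_add' v w := by
    ext x'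
    simp [mul_add, Finset.sum_add_distrib]
  map_smul' c v := by
    ext x'
    simp [Finset.mul_sum, mul_left_comm]

@[simp]
lemma s56ei_matMap_apply {X X' : Type} [Fintype X] (A : X' → X → ℤ) (v : X → ℤ) (x' : X') :
    s56ei_matMap A v x' = ∑ x, A x' x * v x := rfl

/-- **Brauer–Nesbitt for permutation modules**: a `G`-invariant integer matrix `X' × X`,
injective over `ℚ`, with `#X = #X'`, gives `F(k[X]) = F(k[X'])`. -/
theorem s56ei_perm_eq_of_matrix (F : s56ei_AddFn (ZMod p) G) (X X' : Type) [Fintype X]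
    [Fintype X'] [MulAction G X] [MulAction G X'] (hcard : Fintype.card X = Fintype.card X')
    (A : X' → X → ℤ) (hA : ∀ (g : G) x' x, A (g • x') (g • x) = A x' x)
    (hinj : Injective (fun (v : X → ℚ) (x' : X') => ∑ x, (A x' x : ℚ) * v x)) :
    F.f _ (s56ei_perm (ZMod p) X) = F.f _ (s56ei_perm (ZMod p) X') := by
  classical
  rw [← s56ei_red_perm p F X, ← s56ei_red_perm p F X']
  -- the rational map
  let φQ : (X → ℚ) →ₗ[ℚ] (X' → ℚ) :=
    { toFun := fun v x' => ∑ x, (A x' x : ℚ) * v x
      map_add' := fun v w => by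
        ext x'
        simp [mul_add, Finset.sum_add_distrib]
      map_smul' := fun c v => by
        ext x'
        simp [Finset.mul_sum, mul_left_comm] }
  have hφQ : Injective φQ := hinj
  have hsurj : Surjective φQ := by
    refine (LinearMap.injective_iff_surjective_of_finrank_eq_finrank ?_).1 hφQ
    rw [Module.finrank_fintype_fun_eq_card, Module.finrank_fintype_fun_eq_card, hcard]
  have hcast : ∀ (v : X → ℤ) (x' : X'),
      ((s56ei_matMap A v x' : ℤ) : ℚ) = φQ (fun x => (v x : ℚ)) x' := by
    intro v x'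
    simp [φQ]
  have hinjZ : Injective (s56ei_matMap (X := X) A) := by
    intro v w hvw
    have : (fun x => (v x : ℚ)) = fun x => (w x : ℚ) := by
      apply hφQ
      ext x'
      rw [← hcast, ← hcast, hvw]
    ext x
    exact_mod_cast congrFun this x
  have hfin : Finite ((X' → ℤ) ⧸ LinearMap.range (s56ei_matMap (X := X) A)) := by
    apply Module.finite_of_fg_torsion
    intro q
    obtain ⟨y, rfl⟩ := Submodule.Quotient.mk_surjective _ q
    obtain ⟨v, hv⟩ := hsurj (fun x' => (y x' : ℚ))
    obtain ⟨N, hN, w, hw⟩ := s56ei_clear_den v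
    have hNz : (N : ℤ) ≠ 0 := by exact_mod_cast hN.ne'
    refine ⟨⟨(N : ℤ), mem_nonZeroDivisors_of_ne_zero hNz⟩, ?_⟩
    show (N : ℤ) • (Submodule.Quotient.mk y :
      (X' → ℤ) ⧸ LinearMap.range (s56ei_matMap (X := X) A)) = 0
    rw [← Submodule.Quotient.mk_smul, Submodule.Quotient.mk_eq_zero]
    refine ⟨w, ?_⟩
    ext x'
    have h1 : ((s56ei_matMap A w x' : ℤ) : ℚ) = (N : ℚ) * (y x' : ℚ) := by
      rw [hcast]
      have : (fun x => (w x : ℚ)) = (N : ℚ) • v := by
        ext x; simp [hw x]
      rw [this, map_smul, hv]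
      simp
    have h2 : ((((N : ℤ) • y) x' : ℤ) : ℚ) = (N : ℚ) * (y x' : ℚ) := by
      simp
    exact_mod_cast h1.trans h2.symm
  refine s56ei_bn p F (s56ei_perm ℤ X) (s56ei_perm ℤ X') ?_ (s56ei_matMap A) hinjZ ?_
  · intro y hy
    ext x'
    have := congrFun hy x'
    simp only [Pi.smul_apply, smul_eq_mul, Pi.zero_apply, mul_eq_zero] at this
    rcases this with h | h
    · exact absurd h (by exact_mod_cast (Fact.out : p.Prime).ne_zero)
    · exact h
  · intro g v
    ext x'
    simp only [s56ei_matMap_apply, s56ei_perm_apply]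
    refine Fintype.sum_equiv (MulAction.toPerm g⁻¹) _ _ ?_
    intro x
    simp only [MulAction.toPerm_apply]
    rw [← hA g (g⁻¹ • x') (g⁻¹ • x), smul_inv_smul, smul_inv_smul]

end matrix

end Fermat.Agent.S56
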