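import Mathlib
import Fermat.Agent.S56.GW.EC.Ind.Perm

/-!
# (EC3) [EC-IND]: `(G ⧸ B → M) ≅ coind_B^G Res_B M` (prefix `s56ei_`)
-/

set_option autoImplicit false
set_option linter.unusedSectionVars false
set_option linter.style.haveILetI false

namespace Fermat.Agent.S56

open Function

section frob

variable {k : Type} [Field k] {G : Type} [Group G]

/-- The restriction of a representation to a subgroup. -/
def s56ei_res {M : Type} [AddCommGroup M] [Module k M] (ρ : Representation k G M)
    (B : Subgroup G) : Representation k B M := ρ.comp B.subtype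

@[simp]
lemma s56ei_res_apply {M : Type} [AddCommGroup M] [Module k M] (ρ : Representation k G M)
    (B : Subgroup G) (b : B) (m : M) : s56ei_res ρ B b m = ρ (b : G) m := rfl

/-- The map `(G ⧸ B → M) → coind_B^G Res_B M`, `v ↦ (h ↦ ρ h (v (h⁻¹ B)))`. -/
def s56ei_frobMap {M : Type} [AddCommGroup M] [Module k M] (ρ : Representation k G M)
    (B : Subgroup G) :
    (G ⧸ B → M) →ₗ[k] Representation.coindV B.subtype (s56ei_res ρ B) where
  toFun v := ⟨fun h => ρ h (v ((h⁻¹ : G) : G ⧸ B)), by
    intro b h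
    have : ((((b : G) * h)⁻¹ : G) : G ⧸ B) = ((h⁻¹ : G) : G ⧸ B) := by
      rw [QuotientGroup.eq]
      simp only [mul_inv_rev, inv_inv]
      have : (b : G) * h * h⁻¹ = b := by group
      rw [this]
      exact b.2
    simp only [Subgroup.subtype_apply, this, map_mul, Module.End.mul_apply, s56ei_res_apply]⟩
  map_add' v w := by
    apply Subtype.ext
    funext h
    simp
  map_smul' c v := by
    apply Subtype.ext
    funext h
    simp

@[simp]
lemma s56ei_frobMap_apply {M : Type} [AddCommGroup M] [Module k M] (ρ : Representation k G M)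
    (B : Subgroup G) (v : G ⧸ B → M) (h : G) :
    (s56ei_frobMap ρ B v).1 h = ρ h (v ((h⁻¹ : G) : G ⧸ B)) := rfl

lemma s56ei_frobMap_bijective {M : Type} [AddCommGroup M] [Module k M]
    (ρ : Representation k G M) (B : Subgroup G) : Bijective (s56ei_frobMap ρ B) := by
  constructor
  · rw [← LinearMap.ker_eq_bot, eq_bot_iff]
    intro v hv
    rw [LinearMap.mem_ker] at hv
    rw [Submodule.mem_bot]
    funext q
    obtain ⟨x, rfl⟩ := QuotientGroup.mk_surjective q
    have h1 := congrFun (congrArg Subtype.val hv) x⁻¹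
    simp only [s56ei_frobMap_apply, inv_inv] at h1
    have h2 : ρ x (ρ x⁻¹ (v (x : G ⧸ B))) = ρ x 0 := by
      rw [h1]; rfl
    rw [← Module.End.mul_apply, ← map_mul, mul_inv_cancel, map_one, Module.End.one_apply,
      map_zero] at h2
    exact h2
  · intro f
    refine ⟨fun q => ρ q.out (f.1 (q.out)⁻¹), ?_⟩
    apply Subtype.ext
    funext h
    rw [s56ei_frobMap_apply]
    -- the representative of `h⁻¹ B` is `h⁻¹ b`
    set x : G := (((h⁻¹ : G) : G ⧸ B)).out with hx
    have hxh : h * x ∈ B := by
      have : ((x : G) : G ⧸ B) = ((h⁻¹ : G) : G ⧸ B) := QuotientGroup.out_eq' _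
      have h3 := QuotientGroup.eq.1 this.symm
      simpa using h3
    -- `f (x⁻¹) = f ((h x)⁻¹ h) = ρ (h x)⁻¹ (f h)`
    have hf := f.2 ⟨(h * x)⁻¹, B.inv_mem hxh⟩ h
    simp only [Subgroup.subtype_apply, s56ei_res_apply] at hf
    have h4 : (h * x)⁻¹ * h = x⁻¹ := by group
    rw [h4] at hf
    rw [hf, ← Module.End.mul_apply, ← map_mul, ← Module.End.mul_apply, ← map_mul]
    have h5 : h * x * (h * x)⁻¹ = 1 := by group
    rw [h5, map_one, Module.End.one_apply]

/-- `F(G ⧸ B → M) = F(coind_B^G Res_B M)`. -/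
lemma s56ei_frob (F : s56ei_AddFn k G) {M : Type} [AddCommGroup M] [Module k M]
    [Module.Finite k M] [Finite G] (ρ : Representation k G M) (B : Subgroup G) :
    F.f (G ⧸ B → M) (s56ei_permM (G ⧸ B) ρ)
      = F.f (Representation.coindV B.subtype (s56ei_res ρ B))
          (Representation.coind B.subtype (s56ei_res ρ B)) := by
  haveI := Fintype.ofFinite (G ⧸ B)
  refine s56ei_iso F _ _ (LinearEquiv.ofBijective _ (s56ei_frobMap_bijective ρ B)) ?_
  intro g v
  apply Subtype.ext
  funext h
  simp only [LinearEquiv.ofBijective_apply, s56ei_frobMap_apply, s56ei_permM_apply,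
    Representation.coind_apply]
  show _ = (s56ei_frobMap ρ B v).1 (h * g)
  rw [s56ei_frobMap_apply, map_mul, Module.End.mul_apply]
  congr 2
  rw [mul_inv_rev]
  rfl

end frob

end Fermat.Agent.S56
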