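import Mathlib
import Fermat.Agent.S56.GW.EC.Ind.Defs

/-!
# (EC3) [EC-IND]: exactness of coinduction and the `p`-part (prefix `s56ei_`)

* `s56ei_coind_add` : `F(coind N) = F(coind W) + F(coind N/W)` for a stable submodule `W`;
* `s56ei_coind_all` : if `F` vanishes on `coind_C N` whenever the `p`-part of the cyclic group `C`
  acts trivially on `N`, then it vanishes on `coind_C N` for all `N`.
-/

set_option autoImplicit false
set_option linter.unusedSectionVars false
set_option linter.style.haveILetI false

namespace Fermat.Agent.S56

open Function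

section coindexact

variable {k : Type} [Field k] {G : Type} [Group G] [Finite G]

instance s56ei_coindV_finite (C : Subgroup G) {N : Type} [AddCommGroup N] [Module k N]
    [Module.Finite k N] (σ : Representation k C N) :
    Module.Finite k (Representation.coindV C.subtype σ) := by
  haveI : Module.Finite k (G → N) := Module.Finite.pi
  infer_instance

/-- Additivity of `N ↦ F(coind_C^G N)`. -/
lemma s56ei_coind_add (F : s56ei_AddFn k G) (C : Subgroup G) {N : Type} [AddCommGroup N]
    [Module k N] [Module.Finite k N] (σ : Representation k C N) (W : Submodule k N)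
    (hW : ∀ c, ∀ w ∈ W, σ c w ∈ W) :
    F.f (Representation.coindV C.subtype σ) (Representation.coind C.subtype σ)
      = F.f (Representation.coindV C.subtype (s56ei_sub σ W hW))
          (Representation.coind C.subtype (s56ei_sub σ W hW))
        + F.f (Representation.coindV C.subtype (s56ei_quot σ W hW))
          (Representation.coind C.subtype (s56ei_quot σ W hW)) := by
  classical
  -- the two maps
  let i : Representation.coindV C.subtype (s56ei_sub σ W hW) →ₗ[k]
      Representation.coindV C.subtype σ :=
    { toFun := fun f => ⟨fun h => (f.1 h : N), fun c h => by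
        have := f.2 c h
        simp only [this, s56ei_sub_apply]⟩
      map_add' := fun f f' => rfl
      map_smul' := fun c f => rfl }
  let q : Representation.coindV C.subtype σ →ₗ[k]
      Representation.coindV C.subtype (s56ei_quot σ W hW) :=
    { toFun := fun f => ⟨fun h => Submodule.Quotient.mk (f.1 h), fun c h => by
        have := f.2 c h
        simp only [this, s56ei_quot_mk]⟩
      map_add' := fun f f' => rfl
      map_smul' := fun c f => rfl }
  refine F.add _ _ _ _ _ _ i q ?_ ?_ ?_ ?_ ?_
  · intro f f' hff
    apply Subtype.ext
    funext h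
    apply Subtype.ext
    exact congrFun (congrArg Subtype.val hff) h
  · -- surjectivity via a transversal
    intro f
    obtain ⟨T, hT, -⟩ := Subgroup.exists_isComplement_right C (1 : G)
    let s : N ⧸ W → N := Function.surjInv (Submodule.mkQ_surjective W)
    have hs : ∀ y, Submodule.Quotient.mk (s y) = y := fun y =>
      Function.surjInv_eq (Submodule.mkQ_surjective W) y
    refine ⟨⟨fun h => σ (hT.equiv h).1 (s (f.1 ((hT.equiv h).2 : G))), ?_⟩, ?_⟩
    · intro c h
      have h1 : hT.equiv (C.subtype c * h) = (c * (hT.equiv h).fst, (hT.equiv h).snd) :=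
        hT.equiv_mul_left c h
      simp only [h1, map_mul, Module.End.mul_apply]
    · apply Subtype.ext
      funext h
      show Submodule.Quotient.mk (σ (hT.equiv h).1 (s (f.1 ((hT.equiv h).2 : G)))) = f.1 h
      rw [← s56ei_quot_mk σ W hW, hs]
      have h2 := f.2 (hT.equiv h).1 ((hT.equiv h).2 : G)
      rw [← h2]
      exact congrArg f.1 (hT.equiv_fst_mul_equiv_snd h)
  · ext f
    simp only [LinearMap.mem_range, LinearMap.mem_ker]
    constructor
    · rintro ⟨f', rfl⟩
      apply Subtype.ext
      funext h
      show Submodule.Quotient.mk ((f'.1 h : N)) = 0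
      rw [Submodule.Quotient.mk_eq_zero]
      exact (f'.1 h).2
    · intro hf
      have hmem : ∀ h, f.1 h ∈ W := fun h => by
        have := congrFun (congrArg Subtype.val hf) h
        exact (Submodule.Quotient.mk_eq_zero W).1 this
      refine ⟨⟨fun h => ⟨f.1 h, hmem h⟩, fun c h => ?_⟩, ?_⟩
      · apply Subtype.ext
        simp only [s56ei_sub_apply]
        exact f.2 c h
      · apply Subtype.ext
        funext h
        rfl
  · intro g f
    rfl
  · intro g f
    rfl

end coindexact

section ppart

variable (p : ℕ) [Fact p.Prime] {G : Type} [Group G] [Finite G]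

/-- The vectors fixed by all elements of `p`-power order. -/
def s56ei_pfix (C : Subgroup G) {N : Type} [AddCommGroup N] [Module (ZMod p) N]
    (σ : Representation (ZMod p) C N) : Submodule (ZMod p) N where
  carrier := {n | ∀ c : C, (∃ a : ℕ, c ^ p ^ a = 1) → σ c n = n}
  add_mem' := fun {x y} hx hy c hc => by rw [map_add, hx c hc, hy c hc]
  zero_mem' := fun c _ => map_zero _
  smul_mem' := fun r x hx c hc => by rw [map_smul, hx c hc]

lemma s56ei_mem_pfix (C : Subgroup G) {N : Type} [AddCommGroup N] [Module (ZMod p) N]
    (σ : Representation (ZMod p) C N) (n : N) :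
    n ∈ s56ei_pfix p C σ ↔ ∀ c : C, (∃ a : ℕ, c ^ p ^ a = 1) → σ c n = n := Iff.rfl

lemma s56ei_pfix_stable (C : Subgroup G) (hC : IsCyclic C) {N : Type} [AddCommGroup N]
    [Module (ZMod p) N] (σ : Representation (ZMod p) C N) :
    ∀ c, ∀ w ∈ s56ei_pfix p C σ, σ c w ∈ s56ei_pfix p C σ := by
  intro c w hw t ht
  letI : CommGroup C := hC.commGroup
  have hcomm : t * c = c * t := mul_comm t c
  rw [← Module.End.mul_apply, ← map_mul, hcomm, map_mul, Module.End.mul_apply, hw t ht]

lemma s56ei_pfix_ne_bot (C : Subgroup G) (hC : IsCyclic C) {N : Type} [AddCommGroup N]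
    [Module (ZMod p) N] [Module.Finite (ZMod p) N] [Nontrivial N]
    (σ : Representation (ZMod p) C N) : s56ei_pfix p C σ ≠ ⊥ := by
  letI : CommGroup C := hC.commGroup
  let P : Subgroup C := CommGroup.primaryComponent C p
  have hP : IsPGroup p P := CommGroup.primaryComponent.isPGroup
  letI : MulAction P N :=
    { smul := fun t n => σ t.1 n
      one_smul := fun n => by
        show σ ((1 : P) : C) n = n
        rw [Subgroup.coe_one, map_one, Module.End.one_apply]
      mul_smul := fun s t n => by
        show σ ((s * t : P) : C) n = σ s.1 (σ t.1 n)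
        rw [Subgroup.coe_mul, map_mul, Module.End.mul_apply] }
  haveI : Finite N := Module.finite_of_finite (ZMod p)
  have hdvd : p ∣ Nat.card N := by
    rw [Module.natCard_eq_pow_finrank (K := ZMod p), Nat.card_zmod]
    exact dvd_pow_self p (Module.finrank_pos (R := ZMod p) (M := N)).ne'
  have h0 : (0 : N) ∈ MulAction.fixedPoints P N := fun t => by
    show σ t.1 0 = 0
    exact map_zero _
  obtain ⟨b, hb, hb0⟩ := hP.exists_fixed_point_of_prime_dvd_card_of_fixed_point N hdvd h0
  intro hbot
  apply hb0
  have hbm : b ∈ s56ei_pfix p C σ := by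
    intro c hc
    have hcP : c ∈ P := hc
    exact hb ⟨c, hcP⟩
  rw [hbot, Submodule.mem_bot] at hbm
  exact hbm.symm

/-- If `F` vanishes on `coind_C N` whenever the elements of `p`-power order of the cyclic group
`C` act trivially on `N`, then `F` vanishes on `coind_C N` for every `N`. -/
theorem s56ei_coind_all (F : s56ei_AddFn (ZMod p) G) (C : Subgroup G) (hC : IsCyclic C)
    (hF : ∀ (N : Type) [AddCommGroup N] [Module (ZMod p) N] [Module.Finite (ZMod p) N]
      (σ : Representation (ZMod p) C N), (∀ c : C, (∃ a : ℕ, c ^ p ^ a = 1) → σ c = 1) →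
      F.f _ (Representation.coind C.subtype σ) = 0) :
    ∀ (N : Type) [AddCommGroup N] [Module (ZMod p) N] [Module.Finite (ZMod p) N]
      (σ : Representation (ZMod p) C N), F.f _ (Representation.coind C.subtype σ) = 0 := by
  have key : ∀ (n : ℕ) (N : Type) [AddCommGroup N] [Module (ZMod p) N]
      [Module.Finite (ZMod p) N] (σ : Representation (ZMod p) C N),
      Module.finrank (ZMod p) N = n → F.f _ (Representation.coind C.subtype σ) = 0 := by
    intro n
    induction n using Nat.strong_induction_on with
    | _ n ih =>
      intro N _ _ _ σ hn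
      rcases subsingleton_or_nontrivial N with hs | hnt
      · haveI : Subsingleton (Representation.coindV C.subtype σ) :=
          ⟨fun a b => Subtype.ext (funext fun h => Subsingleton.elim _ _)⟩
        exact s56ei_zero F _ _
      · set W := s56ei_pfix p C σ with hWdef
        have hW := s56ei_pfix_stable p C hC σ
        have hWne : W ≠ ⊥ := s56ei_pfix_ne_bot p C hC σ
        rw [s56ei_coind_add F C σ W hW]
        have h1 : F.f _ (Representation.coind C.subtype (s56ei_sub σ W hW)) = 0 := by
          apply hF
          intro c hc
          ext w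
          exact w.2 c hc
        have h2 : F.f _ (Representation.coind C.subtype (s56ei_quot σ W hW)) = 0 := by
          refine ih (Module.finrank (ZMod p) (N ⧸ W)) ?_ _ _ rfl
          rw [← hn]
          have h3 := Submodule.finrank_quotient_add_finrank W
          have h4 : 0 < Module.finrank (ZMod p) W := by
            rw [Module.finrank_pos_iff]
            exact (Submodule.nontrivial_iff_ne_bot).2 hWne
          omega
        rw [h1, h2, add_zero]
  intro N _ _ _ σ
  exact key _ N σ rfl

end ppart

end Fermat.Agent.S56
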