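import Mathlib
import Fermat.Agent.S56.GW.EC.Ind.Perm

/-!
# (EC3) [EC-IND]: bundled finite `G`-sets, lists of coset spaces (prefix `s56ei_`)
-/

set_option autoImplicit false
set_option linter.unusedSectionVars false
set_option linter.style.haveILetI false

namespace Fermat.Agent.S56

open Function

/-- A bundled finite `G`-set. -/
structure s56ei_GSet (G : Type) [Group G] where
  /-- the underlying type -/
  X : Type
  [fin : Fintype X]
  [act : MulAction G X]

attribute [instance] s56ei_GSet.fin s56ei_GSet.act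

section gset

variable (p : ℕ) [Fact p.Prime] {G : Type} [Group G]

/-- The disjoint union of two `G`-sets. -/
def s56ei_GSet.sum (A B : s56ei_GSet G) : s56ei_GSet G := ⟨A.X ⊕ B.X⟩

/-- The empty `G`-set. -/
def s56ei_GSet.empty (G : Type) [Group G] : s56ei_GSet G :=
  @s56ei_GSet.mk G _ PEmpty inferInstance
    { smul := fun _ x => x
      one_smul := fun _ => rfl
      mul_smul := fun _ _ _ => rfl }

/-- The coset space `G ⧸ H`. -/
noncomputable def s56ei_GSet.coset [Finite G] (H : Subgroup G) : s56ei_GSet G :=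
  @s56ei_GSet.mk G _ (G ⧸ H) (Fintype.ofFinite _) inferInstance

/-- The disjoint union of the coset spaces of a list of subgroups. -/
noncomputable def s56ei_GSet.ofList [Finite G] : List (Subgroup G) → s56ei_GSet G
  | [] => s56ei_GSet.empty G
  | H :: l => (s56ei_GSet.coset H).sum (s56ei_GSet.ofList l)

/-- The value of an additive function on the permutation module of a `G`-set. -/
def s56ei_GSet.val (F : s56ei_AddFn (ZMod p) G) (A : s56ei_GSet G) : ℤ :=
  F.f (A.X → ZMod p) (s56ei_perm (ZMod p) A.X)

/-- The number of fixed points of `g`. -/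
noncomputable def s56ei_GSet.fixc (A : s56ei_GSet G) (g : G) : ℕ :=
  Nat.card (MulAction.fixedBy A.X g)

lemma s56ei_GSet.val_sum (F : s56ei_AddFn (ZMod p) G) (A B : s56ei_GSet G) :
    (A.sum B).val p F = A.val p F + B.val p F := by
  have h := F.add (B.X → ZMod p) (A.X ⊕ B.X → ZMod p) (A.X → ZMod p)
    (s56ei_perm (ZMod p) B.X) (s56ei_perm (ZMod p) (A.X ⊕ B.X)) (s56ei_perm (ZMod p) A.X)
    { toFun := fun w => Sum.elim 0 w
      map_add' := fun v w => by ext z; cases z <;> simp
      map_smul' := fun c v => by ext z; cases z <;> simp }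
    { toFun := fun v => v ∘ Sum.inl
      map_add' := fun v w => rfl
      map_smul' := fun c v => rfl }
    (by
      intro v w h
      ext b
      exact congrFun h (Sum.inr b))
    (by
      intro v
      exact ⟨Sum.elim v 0, rfl⟩)
    (by
      ext v
      simp only [LinearMap.mem_range, LinearMap.coe_mk, AddHom.coe_mk, LinearMap.mem_ker]
      constructor
      · rintro ⟨w, rfl⟩
        ext a
        simp
      · intro h
        refine ⟨v ∘ Sum.inr, ?_⟩
        ext z
        cases z with
        | inl a => exact (congrFun h a).symm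
        | inr b => rfl)
    (by
      intro g w
      ext z
      cases z with
      | inl a => simp [Sum.smul_inl]
      | inr b => simp [Sum.smul_inr])
    (by
      intro g v
      ext a
      simp [Sum.smul_inl])
  show F.f (A.X ⊕ B.X → ZMod p) (s56ei_perm (ZMod p) (A.X ⊕ B.X)) = _
  rw [h, add_comm]
  rfl

lemma s56ei_GSet.fixc_sum (A B : s56ei_GSet G) (g : G) :
    (A.sum B).fixc g = A.fixc g + B.fixc g := by
  unfold s56ei_GSet.fixc
  rw [← Nat.card_sum]
  refine Nat.card_congr ?_
  show {c : A.X ⊕ B.X // c ∈ MulAction.fixedBy (A.X ⊕ B.X) g} ≃ _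
  refine (Equiv.subtypeSum).trans (Equiv.sumCongr ?_ ?_)
  · exact Equiv.subtypeEquivRight (fun a => by
      simp [MulAction.mem_fixedBy, Sum.smul_inl])
  · exact Equiv.subtypeEquivRight (fun b => by
      simp [MulAction.mem_fixedBy, Sum.smul_inr])

lemma s56ei_GSet.val_empty (F : s56ei_AddFn (ZMod p) G) : (s56ei_GSet.empty G).val p F = 0 := by
  unfold s56ei_GSet.val
  haveI : Subsingleton ((s56ei_GSet.empty G).X → ZMod p) :=
    ⟨fun a b => funext fun x => PEmpty.elim x⟩
  exact s56ei_zero F _ _

lemma s56ei_GSet.fixc_empty (g : G) : (s56ei_GSet.empty G).fixc g = 0 := by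
  unfold s56ei_GSet.fixc
  haveI : IsEmpty (MulAction.fixedBy (s56ei_GSet.empty G).X g) :=
    ⟨fun x => PEmpty.elim x.1⟩
  exact Nat.card_of_isEmpty

variable [Finite G]

lemma s56ei_GSet.val_ofList (F : s56ei_AddFn (ZMod p) G) (l : List (Subgroup G)) :
    (s56ei_GSet.ofList l).val p F = (l.map fun H => (s56ei_GSet.coset H).val p F).sum := by
  induction l with
  | nil => simpa [s56ei_GSet.ofList] using s56ei_GSet.val_empty p F
  | cons H l ih =>
    rw [s56ei_GSet.ofList, s56ei_GSet.val_sum, ih]
    simp

lemma s56ei_GSet.fixc_ofList (l : List (Subgroup G)) (g : G) :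
    (s56ei_GSet.ofList l).fixc g = (l.map fun H => (s56ei_GSet.coset H).fixc g).sum := by
  induction l with
  | nil => simpa [s56ei_GSet.ofList] using s56ei_GSet.fixc_empty g
  | cons H l ih =>
    rw [s56ei_GSet.ofList, s56ei_GSet.fixc_sum, ih]
    simp

/-- The char-0 input (Q2): finite `G`-sets with the same numbers of fixed points are related by
an invariant integer matrix which is injective over `ℚ`. -/
def s56ei_Q2_stmt (G : Type) [Group G] : Prop :=
  ∀ (X X' : Type) [Fintype X] [Fintype X'] [MulAction G X] [MulAction G X'],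
    (∀ g : G, Nat.card (MulAction.fixedBy X g) = Nat.card (MulAction.fixedBy X' g)) →
    ∃ A : X' → X → ℤ, (∀ (g : G) x' x, A (g • x') (g • x) = A x' x) ∧
      Injective (fun (v : X → ℚ) (x' : X') => ∑ x, (A x' x : ℚ) * v x)

omit [Finite G] in
lemma s56ei_GSet.val_eq_of_fixc (hQ2 : s56ei_Q2_stmt G) (F : s56ei_AddFn (ZMod p) G)
    (A B : s56ei_GSet G) (h : ∀ g, A.fixc g = B.fixc g) : A.val p F = B.val p F := by
  obtain ⟨M, hM, hinj⟩ := hQ2 A.X B.X h
  have hcard : Fintype.card A.X = Fintype.card B.X := by
    have h1 := h 1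
    unfold s56ei_GSet.fixc at h1
    rw [MulAction.fixedBy_one_eq_univ, MulAction.fixedBy_one_eq_univ, Nat.card_congr
      (Equiv.Set.univ A.X), Nat.card_congr (Equiv.Set.univ B.X), Nat.card_eq_fintype_card,
      Nat.card_eq_fintype_card] at h1
    exact h1
  exact s56ei_perm_eq_of_matrix p F A.X B.X hcard M hM hinj

lemma s56ei_GSet.fixc_top (g : G) : (s56ei_GSet.coset (⊤ : Subgroup G)).fixc g = 1 := by
  unfold s56ei_GSet.fixc
  haveI : Subsingleton (s56ei_GSet.coset (⊤ : Subgroup G)).X :=
    QuotientGroup.subsingleton_quotient_top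
  haveI : Unique (MulAction.fixedBy (s56ei_GSet.coset (⊤ : Subgroup G)).X g) :=
    { default := ⟨((1 : G) : G ⧸ (⊤ : Subgroup G)), Subsingleton.elim _ _⟩
      uniq := fun x => Subtype.ext (Subsingleton.elim _ _) }
  exact Nat.card_unique

lemma s56ei_GSet.val_top (F : s56ei_AddFn (ZMod p) G) :
    (s56ei_GSet.coset (⊤ : Subgroup G)).val p F
      = F.f (ZMod p) (Representation.trivial (ZMod p) G (ZMod p)) := by
  unfold s56ei_GSet.val
  haveI : Subsingleton (s56ei_GSet.coset (⊤ : Subgroup G)).X :=
    QuotientGroup.subsingleton_quotient_top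
  haveI : Unique (s56ei_GSet.coset (⊤ : Subgroup G)).X :=
    { default := ((1 : G) : G ⧸ (⊤ : Subgroup G))
      uniq := fun x => Subsingleton.elim _ _ }
  refine s56ei_iso F _ _ (LinearEquiv.funUnique _ (ZMod p) (ZMod p)) ?_
  intro g v
  simp only [LinearEquiv.funUnique_apply, Function.eval, s56ei_perm_apply,
    Representation.trivial_apply]
  congr 1
  exact Subsingleton.elim _ _

/-- **The Artin relation for an additive function**, list form. -/
theorem s56ei_artin_rel (hQ2 : s56ei_Q2_stmt G) (F : s56ei_AddFn (ZMod p) G)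
    (lp lm : List (Subgroup G))
    (hrel : ∀ g : G, (lp.map fun H => (s56ei_GSet.coset H).fixc g).sum
      = Nat.card G + (lm.map fun H => (s56ei_GSet.coset H).fixc g).sum) :
    (lp.map fun H => (s56ei_GSet.coset H).val p F).sum
      = Nat.card G * F.f (ZMod p) (Representation.trivial (ZMod p) G (ZMod p))
        + (lm.map fun H => (s56ei_GSet.coset H).val p F).sum := by
  have h := s56ei_GSet.val_eq_of_fixc p hQ2 F (s56ei_GSet.ofList lp)
    (s56ei_GSet.ofList (List.replicate (Nat.card G) (⊤ : Subgroup G) ++ lm)) (by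
      intro g
      rw [s56ei_GSet.fixc_ofList, s56ei_GSet.fixc_ofList, hrel g, List.map_append,
        List.sum_append, List.map_replicate, List.sum_replicate, s56ei_GSet.fixc_top]
      simp)
  rw [s56ei_GSet.val_ofList, s56ei_GSet.val_ofList, List.map_append, List.sum_append,
    List.map_replicate, List.sum_replicate, s56ei_GSet.val_top] at h
  rw [h]
  simp

omit [Finite G] in
lemma s56ei_sum_flatMap_replicate {α : Type} (l : List α) (n : α → ℕ) (f : α → ℤ) :
    ((l.flatMap fun B => List.replicate (n B) B).map f).sum = (l.map fun B => (n B : ℤ) * f B).sum := by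
  induction l with
  | nil => simp
  | cons B l ih =>
    rw [List.flatMap_cons, List.map_append, List.sum_append, ih, List.map_replicate,
      List.sum_replicate]
    simp

omit [Finite G] in
lemma s56ei_mem_flatMap_replicate {α : Type} (l : List α) (n : α → ℕ) (B : α)
    (hB : B ∈ l.flatMap fun B => List.replicate (n B) B) : n B ≠ 0 := by
  obtain ⟨C, _, hC⟩ := List.mem_flatMap.1 hB
  obtain ⟨h1, rfl⟩ := List.mem_replicate.1 hC
  exact h1

/-- **(2)+(3) of the plan**: given the Artin coefficients (Q1) and the char-0 input (Q2), an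
additive function which vanishes on the permutation modules `k[G/B]`, `B` cyclic, vanishes on the
trivial module `k`. -/
theorem s56ei_triv_eq_zero (hQ2 : s56ei_Q2_stmt G) [Fintype (Subgroup G)]
    (a : Subgroup G → ℤ) (ha : ∀ B, a B ≠ 0 → IsCyclic B)
    (hrel : ∀ g : G, ∑ B : Subgroup G,
      a B * (Nat.card (MulAction.fixedBy (G ⧸ B) g) : ℤ) = Nat.card G)
    (F : s56ei_AddFn (ZMod p) G)
    (hcyc : ∀ B : Subgroup G, IsCyclic B → (s56ei_GSet.coset B).val p F = 0) :
    F.f (ZMod p) (Representation.trivial (ZMod p) G (ZMod p)) = 0 := by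
  classical
  set L : List (Subgroup G) := (Finset.univ : Finset (Subgroup G)).toList with hL
  set lp : List (Subgroup G) := L.flatMap fun B => List.replicate (a B).toNat B with hlp
  set lm : List (Subgroup G) := L.flatMap fun B => List.replicate (-a B).toNat B with hlm
  have hsumL : ∀ h : Subgroup G → ℤ, (L.map h).sum = ∑ B, h B := fun h =>
    Finset.sum_map_toList _ h
  have hfix : ∀ (g : G) (l : List (Subgroup G)),
      (((l.map fun H => (s56ei_GSet.coset H).fixc g).sum : ℕ) : ℤ)
        = (l.map fun H => ((s56ei_GSet.coset H).fixc g : ℤ)).sum := by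
    intro g l
    induction l with
    | nil => simp
    | cons H l ih => simp [ih]
  have hrel' : ∀ g : G, (lp.map fun H => (s56ei_GSet.coset H).fixc g).sum
      = Nat.card G + (lm.map fun H => (s56ei_GSet.coset H).fixc g).sum := by
    intro g
    have : (((lp.map fun H => (s56ei_GSet.coset H).fixc g).sum : ℕ) : ℤ)
        = ((Nat.card G + (lm.map fun H => (s56ei_GSet.coset H).fixc g).sum : ℕ) : ℤ) := by
      rw [Nat.cast_add, hfix, hfix, hlp, hlm, s56ei_sum_flatMap_replicate, s56ei_sum_flatMap_replicate,
        hsumL, hsumL, ← hrel g, ← Finset.sum_add_distrib]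
      refine Finset.sum_congr rfl fun B _ => ?_
      have h1 : ((a B).toNat : ℤ) - ((-a B).toNat : ℤ) = a B := Int.toNat_sub_toNat_neg (a B)
      have h2 : ((s56ei_GSet.coset B).fixc g : ℤ)
          = (Nat.card (MulAction.fixedBy (G ⧸ B) g) : ℤ) := rfl
      rw [h2]
      linear_combination (Nat.card (MulAction.fixedBy (G ⧸ B) g) : ℤ) * h1
    exact_mod_cast this
  have hmain := s56ei_artin_rel p hQ2 F lp lm hrel'
  have hp0 : (lp.map fun H => (s56ei_GSet.coset H).val p F).sum = 0 := by
    apply List.sum_eq_zero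
    intro x hx
    obtain ⟨B, hB, rfl⟩ := List.mem_map.1 hx
    apply hcyc B (ha B _)
    intro h0
    exact s56ei_mem_flatMap_replicate L _ B hB (by rw [h0]; rfl)
  have hm0 : (lm.map fun H => (s56ei_GSet.coset H).val p F).sum = 0 := by
    apply List.sum_eq_zero
    intro x hx
    obtain ⟨B, hB, rfl⟩ := List.mem_map.1 hx
    apply hcyc B (ha B _)
    intro h0
    exact s56ei_mem_flatMap_replicate L _ B hB (by rw [h0]; rfl)
  rw [hp0, hm0, add_zero] at hmain
  have hG : (Nat.card G : ℤ) ≠ 0 := by exact_mod_cast Nat.card_pos.ne'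
  rcases mul_eq_zero.1 hmain.symm with h | h
  · exact absurd h hG
  · exact h

end gset

end Fermat.Agent.S56
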