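import Mathlib
import Fermat.Agent.S56.GW.EC.Ind.Perm

/-!
# (EC3) [EC-IND]: the Frobenius trick (prefix `s56ei_`)

For an additive function `F` and a fixed representation `(M, ρ)`, `U ↦ F(M ⊗ U)` is again an
additive function; `M ⊗ k ≅ M` and `M ⊗ k[X] ≅ (X → M)`.
-/

set_option autoImplicit false
set_option linter.unusedSectionVars false
set_option linter.style.haveILetI false

namespace Fermat.Agent.S56

open Function TensorProduct

section tens

variable {k : Type} [Field k] {G : Type} [Group G]

/-- The additive function `U ↦ F(M ⊗ U)`. -/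
noncomputable def s56ei_tens (F : s56ei_AddFn k G) {M : Type} [AddCommGroup M] [Module k M]
    [Module.Finite k M] (ρ : Representation k G M) : s56ei_AddFn k G where
  f U _ _ ρU := F.f (M ⊗[k] U) (ρ.tprod ρU)
  add := by
    intro M₁ M₂ M₃ _ _ _ _ _ _ _ _ _ ρ₁ ρ₂ ρ₃ i q hi hq hiq hie hqe
    refine F.add (M ⊗[k] M₁) (M ⊗[k] M₂) (M ⊗[k] M₃) _ _ _ (i.lTensor M) (q.lTensor M)
      (Module.Flat.lTensor_preserves_injective_linearMap i hi)
      (LinearMap.lTensor_surjective M hq) ?_ ?_ ?_
    · have hex : Function.Exact i q := (LinearMap.exact_iff).2 hiq.symm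
      exact ((LinearMap.exact_iff).1 (lTensor_exact M hex hq)).symm
    · intro g x
      induction x using TensorProduct.induction_on with
      | zero => simp
      | tmul m u => simp [Representation.tprod_apply, hie]
      | add x y hx hy => simp only [map_add, hx, hy]
    · intro g x
      induction x using TensorProduct.induction_on with
      | zero => simp
      | tmul m u => simp [Representation.tprod_apply, hqe]
      | add x y hx hy => simp only [map_add, hx, hy]

lemma s56ei_tens_f (F : s56ei_AddFn k G) {M : Type} [AddCommGroup M] [Module k M]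
    [Module.Finite k M] (ρ : Representation k G M) (U : Type) [AddCommGroup U] [Module k U]
    (ρU : Representation k G U) :
    (s56ei_tens F ρ).f U ρU = F.f (M ⊗[k] U) (ρ.tprod ρU) := rfl

/-- `M ⊗ k ≅ M`. -/
lemma s56ei_tens_trivial (F : s56ei_AddFn k G) {M : Type} [AddCommGroup M] [Module k M]
    [Module.Finite k M] (ρ : Representation k G M) :
    (s56ei_tens F ρ).f k (Representation.trivial k G k) = F.f M ρ := by
  rw [s56ei_tens_f]
  refine s56ei_iso F _ _ (TensorProduct.rid k M) ?_
  intro g x
  induction x using TensorProduct.induction_on with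
  | zero => simp
  | tmul m c => simp [Representation.tprod_apply]
  | add x y hx hy => simp only [map_add, hx, hy]

/-- `M ⊗ k[X] ≅ (X → M)`. -/
lemma s56ei_tens_perm (F : s56ei_AddFn k G) {M : Type} [AddCommGroup M] [Module k M]
    [Module.Finite k M] (ρ : Representation k G M) (X : Type) [Fintype X] [MulAction G X] :
    (s56ei_tens F ρ).f (X → k) (s56ei_perm k X) = F.f (X → M) (s56ei_permM X ρ) := by
  classical
  rw [s56ei_tens_f]
  refine s56ei_iso F _ _ (TensorProduct.piScalarRight k k M X) ?_
  intro g x
  induction x using TensorProduct.induction_on with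
  | zero => simp
  | tmul m v =>
    ext y
    simp [Representation.tprod_apply]
  | add x y hx hy => simp only [map_add, hx, hy]

end tens

end Fermat.Agent.S56
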