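import Mathlib
import Fermat.Agent.S56.GW.EC.Ind.Sets
import Fermat.Agent.S56.GW.EC.Ind.Tensor
import Fermat.Agent.S56.GW.EC.Ind.Frob
import Fermat.Agent.S56.GW.EC.Ind.PPart

/-!
# (EC3) [EC-IND]: the induction theorem for additive functions, modulo the char-0 inputs
(prefix `s56ei_`)

`s56ei_main_of` : let `F` be an additive function on the finite-dimensional representations of the
finite group `G` over `ZMod p` such that `F (coind_C^G N) = 0` for every cyclic subgroup `C` and
every `N` on which the elements of `p`-power order of `C` act trivially.  Then `F = 0`.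
The two char-0 inputs (Q1) Artin's coefficients and (Q2) `s56ei_Q2_stmt` are hypotheses here.
-/

set_option autoImplicit false
set_option linter.unusedSectionVars false
set_option linter.style.haveILetI false

namespace Fermat.Agent.S56

open Function

section main

variable (p : ℕ) [Fact p.Prime] {G : Type} [Group G] [Finite G]

/-- The hypothesis on cyclic subgroups. -/
def s56ei_CycHyp (F : s56ei_AddFn (ZMod p) G) : Prop :=
  ∀ (C : Subgroup G), IsCyclic C → ∀ (N : Type) [AddCommGroup N] [Module (ZMod p) N]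
    [Module.Finite (ZMod p) N] (σ : Representation (ZMod p) C N),
    (∀ c : C, (∃ a : ℕ, c ^ p ^ a = 1) → σ c = 1) →
    F.f _ (Representation.coind C.subtype σ) = 0

/-- **(EC3) modulo the char-0 inputs.** -/
theorem s56ei_main_of (hQ2 : s56ei_Q2_stmt G) [Fintype (Subgroup G)]
    (a : Subgroup G → ℤ) (ha : ∀ B, a B ≠ 0 → IsCyclic B)
    (hrel : ∀ g : G, ∑ B : Subgroup G,
      a B * (Nat.card (MulAction.fixedBy (G ⧸ B) g) : ℤ) = Nat.card G)
    (F : s56ei_AddFn (ZMod p) G) (hF : s56ei_CycHyp p F)
    (M : Type) [AddCommGroup M] [Module (ZMod p) M] [Module.Finite (ZMod p) M]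
    (ρ : Representation (ZMod p) G M) : F.f M ρ = 0 := by
  rw [← s56ei_tens_trivial F ρ]
  refine s56ei_triv_eq_zero p hQ2 a ha hrel (s56ei_tens F ρ) ?_
  intro B hB
  unfold s56ei_GSet.val
  rw [s56ei_tens_perm F ρ]
  show F.f (G ⧸ B → M) (s56ei_permM (G ⧸ B) ρ) = 0
  rw [s56ei_frob F ρ B]
  exact s56ei_coind_all p F B hB (hF B hB) M (s56ei_res ρ B)

end main

end Fermat.Agent.S56
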