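import Mathlib
import Fermat.Agent.S56.GW.EC.Ind.Main
import Fermat.Agent.S56.GW.EC.IndQ.ArtinFn
import Fermat.Agent.S56.GW.EC.IndQ.Perm

/-!
# (EC3) [EC-IND]: the induction theorem for additive functions (prefix `s56ei_`)

`s56ei_main` : let `G` be a finite group, `p` a prime and `F` an additive function on the
finite-dimensional representations of `G` over `ZMod p`.  If `F (coind_C^G N) = 0` for every cyclic
subgroup `C ≤ G` and every finite-dimensional representation `N` of `C` on which the elements of
`p`-power order of `C` act trivially, then `F = 0`.

(Brauer–Swan / Artin induction: the classes of the modules induced from cyclic `p'`-subgroups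
span the Grothendieck group of `F_p[G]` rationally.)  The char-0 inputs are helper17's
`s56eq_artin_fintype` and `s56eq_perm_iso`.
-/

set_option autoImplicit false
set_option linter.unusedSectionVars false
set_option linter.style.haveILetI false

namespace Fermat.Agent.S56

open Function

/-- The char-0 input (Q2), closed by helper17's `s56eq_perm_iso`. -/
theorem s56ei_Q2 (G : Type) [Group G] [Finite G] : s56ei_Q2_stmt G :=
  fun X X' _ _ _ _ h => s56eq_perm_iso X X' h

/-- **(EC3) [EC-IND]**: an additive function on the finite `F_p[G]`-modules which vanishes on the
modules coinduced from cyclic subgroups (with trivial action of the `p`-part) vanishes. -/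
theorem s56ei_main (p : ℕ) [Fact p.Prime] {G : Type} [Group G] [Finite G]
    (F : s56ei_AddFn (ZMod p) G) (hF : s56ei_CycHyp p F)
    (M : Type) [AddCommGroup M] [Module (ZMod p) M] [Module.Finite (ZMod p) M]
    (ρ : Representation (ZMod p) G M) : F.f M ρ = 0 := by
  classical
  haveI : Fintype (Subgroup G) := Fintype.ofFinite _
  obtain ⟨a, ha, hrel⟩ := s56eq_artin_fintype (G := G)
  exact s56ei_main_of p (s56ei_Q2 G) a ha hrel F hF M ρ

end Fermat.Agent.S56
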