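import Mathlib
import Fermat.Agent.S56.GW.EC.Ind.Perm

/-!
# (EC3) [EC-IND]: from cyclic `p'`-subgroups to all cyclic subgroups (prefix `s56ei_`)

Part A: `(T - 1)^(q-1) = 1 + T + ⋯ + T^(q-1)` for an endomorphism `T` with `T^q = 1`, `q = p^a`,
in characteristic `p`.
Part B: the filtration lemma: `τ` equivariant, `τ^q = 0`, `ker τ ≤ range τ^(q-1)` ⟹
`F(V) = q • F(ker τ)`.
-/

set_option autoImplicit false
set_option linter.unusedSectionVars false
set_option linter.style.haveILetI false

namespace Fermat.Agent.S56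

open Function Polynomial

section partA

variable (p : ℕ) [Fact p.Prime]

lemma s56ei_poly_id (a : ℕ) :
    ((X : (ZMod p)[X]) - 1) ^ (p ^ a - 1) = ∑ i ∈ Finset.range (p ^ a), (X : (ZMod p)[X]) ^ i := by
  have hq : 0 < p ^ a := pow_pos (Fact.out : p.Prime).pos a
  have h1 : ((X : (ZMod p)[X]) - 1) ^ (p ^ a) = X ^ (p ^ a) - 1 := by
    rw [sub_pow_char_pow, one_pow]
  have h2 : ((X : (ZMod p)[X]) - 1) ^ (p ^ a - 1) * (X - 1)
      = (∑ i ∈ Finset.range (p ^ a), (X : (ZMod p)[X]) ^ i) * (X - 1) := by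
    rw [geom_sum_mul, ← h1, ← pow_succ, Nat.sub_add_cancel hq]
  have hne : ((X : (ZMod p)[X]) - 1) ≠ 0 := by
    intro h
    have := congrArg (Polynomial.eval 0) h
    simp at this
  exact mul_right_cancel₀ hne h2

lemma s56ei_end_id {V : Type} [AddCommGroup V] [Module (ZMod p) V] (a : ℕ)
    (T : Module.End (ZMod p) V) (hT : T ^ (p ^ a) = 1) :
    (T - 1) ^ (p ^ a) = 0 ∧ (T - 1) ^ (p ^ a - 1) = ∑ i ∈ Finset.range (p ^ a), T ^ i := by
  have hq : 0 < p ^ a := pow_pos (Fact.out : p.Prime).pos a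
  have h := congrArg (Polynomial.aeval T) (s56ei_poly_id p a)
  simp only [map_pow, map_sub, aeval_X, map_one, map_sum] at h
  refine ⟨?_, h⟩
  have h1 : (T - 1) ^ (p ^ a) = (T - 1) ^ (p ^ a - 1) * (T - 1) := by
    rw [← pow_succ, Nat.sub_add_cancel hq]
  rw [h1, h, geom_sum_mul, hT, sub_self]

end partA

section partB

variable {k : Type} [Field k] {G : Type} [Group G]

/-- The filtration lemma. -/
lemma s56ei_filtration (F : s56ei_AddFn k G) {V : Type} [AddCommGroup V] [Module k V]
    [Module.Finite k V] (ρ : Representation k G V) (τ : V →ₗ[k] V)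
    (hτ : ∀ g v, τ (ρ g v) = ρ g (τ v)) (q : ℕ) (hq : 0 < q) (hnil : τ ^ q = 0)
    (hker : LinearMap.ker τ ≤ LinearMap.range (τ ^ (q - 1))) :
    F.f V ρ = q * F.f (LinearMap.ker τ) (s56ei_sub ρ (LinearMap.ker τ) (fun g w hw => by
        rw [LinearMap.mem_ker] at hw ⊢; rw [hτ, hw, map_zero])) := by
  -- stability of the ranges of the powers
  have hτpow : ∀ (i : ℕ) g v, (τ ^ i) (ρ g v) = ρ g ((τ ^ i) v) := by
    intro i
    induction i with
    | zero => intro g v; simp
    | succ i ih => intro g v; rw [pow_succ', Module.End.mul_apply, ih, hτ, Module.End.mul_apply]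
  have hstab : ∀ (i : ℕ) g, ∀ w ∈ LinearMap.range (τ ^ i), ρ g w ∈ LinearMap.range (τ ^ i) := by
    rintro i g w ⟨v, rfl⟩
    exact ⟨ρ g v, hτpow i g v⟩
  have hkstab : ∀ g, ∀ w ∈ LinearMap.ker τ, ρ g w ∈ LinearMap.ker τ := fun g w hw => by
    rw [LinearMap.mem_ker] at hw ⊢; rw [hτ, hw, map_zero]
  set K : ℤ := F.f (LinearMap.ker τ) (s56ei_sub ρ (LinearMap.ker τ) hkstab) with hK
  -- one step
  have hstep : ∀ i, i < q →
      F.f (LinearMap.range (τ ^ i)) (s56ei_sub ρ _ (hstab i))
        = K + F.f (LinearMap.range (τ ^ (i + 1))) (s56ei_sub ρ _ (hstab (i + 1))) := by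
    intro i hi
    let τi : LinearMap.range (τ ^ i) →ₗ[k] V := τ ∘ₗ (LinearMap.range (τ ^ i)).subtype
    have hτi : ∀ g u, τi (s56ei_sub ρ _ (hstab i) g u) = ρ g (τi u) := fun g u => hτ g u
    rw [s56ei_ker_range F (s56ei_sub ρ _ (hstab i)) ρ τi hτi]
    congr 1
    · -- the kernel is ker τ
      have hle : LinearMap.ker τ ≤ LinearMap.range (τ ^ i) := by
        refine hker.trans ?_
        rintro w ⟨v, rfl⟩
        refine ⟨(τ ^ (q - 1 - i)) v, ?_⟩
        rw [← Module.End.mul_apply, ← pow_add]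
        congr 2
        omega
      let e : LinearMap.ker τi ≃ₗ[k] LinearMap.ker τ :=
        { toFun := fun x => ⟨x.1.1, x.2⟩
          map_add' := fun x y => rfl
          map_smul' := fun c x => rfl
          invFun := fun y => ⟨⟨y.1, hle y.2⟩, y.2⟩
          left_inv := fun x => rfl
          right_inv := fun y => rfl }
      exact s56ei_iso F _ _ e (fun g m => rfl)
    · -- the range is range τ^(i+1)
      have heq : LinearMap.range τi = LinearMap.range (τ ^ (i + 1)) := by
        ext w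
        constructor
        · rintro ⟨⟨u, v, rfl⟩, rfl⟩
          exact ⟨v, by rw [pow_succ', Module.End.mul_apply]; rfl⟩
        · rintro ⟨v, rfl⟩
          exact ⟨⟨(τ ^ i) v, v, rfl⟩, by rw [pow_succ', Module.End.mul_apply]; rfl⟩
      exact s56ei_iso F _ _ (LinearEquiv.ofEq _ _ heq) (fun g m => rfl)
  -- downward induction
  have hdown : ∀ j, j ≤ q →
      F.f (LinearMap.range (τ ^ (q - j))) (s56ei_sub ρ _ (hstab (q - j))) = j * K := by
    intro j
    induction j with
    | zero =>
      intro _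
      haveI : Subsingleton (LinearMap.range (τ ^ (q - 0))) := by
        rw [Nat.sub_zero, hnil]
        exact ⟨fun x y => Subtype.ext (by
          obtain ⟨_, hx⟩ := x.2
          obtain ⟨_, hy⟩ := y.2
          rw [← hx, ← hy]; simp)⟩
      rw [s56ei_zero F]
      simp
    | succ j ih =>
      intro hj
      have h1 := hstep (q - (j + 1)) (by omega)
      have h2 : q - (j + 1) + 1 = q - j := by omega
      rw [h1]
      have h3 : F.f (LinearMap.range (τ ^ (q - (j + 1) + 1)))
          (s56ei_sub ρ _ (hstab (q - (j + 1) + 1)))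
          = F.f (LinearMap.range (τ ^ (q - j))) (s56ei_sub ρ _ (hstab (q - j))) :=
        s56ei_iso F _ _ (LinearEquiv.ofEq _ _ (by rw [h2])) (fun g m => rfl)
      rw [h3, ih (by omega)]
      push_cast
      ring
  have h0 := hdown q le_rfl
  have h4 : F.f V ρ = F.f (LinearMap.range (τ ^ (q - q))) (s56ei_sub ρ _ (hstab (q - q))) := by
    have htop : LinearMap.range (τ ^ (q - q)) = ⊤ := by
      rw [Nat.sub_self, pow_zero]
      exact LinearMap.range_id
    refine s56ei_iso F _ _ ((LinearEquiv.ofTop _ htop).symm) (fun g m => rfl)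
  rw [h4, h0]

end partB

section partC

variable (p : ℕ) [Fact p.Prime] {G : Type} [Group G]

/-- **Abstract covering lemma**: `π : X → Y` an equivariant surjection of finite `G`-sets whose
fibres are the orbits of a free equivariant permutation `r` of order `p^a`.  Then
`F(X → M) = p^a • F(Y → M)`. -/
theorem s56ei_cover (F : s56ei_AddFn (ZMod p) G) {X Y : Type} [Fintype X] [Fintype Y]
    [MulAction G X] [MulAction G Y] (π : X → Y) (hπs : Surjective π)
    (hπe : ∀ (g : G) x, π (g • x) = g • π x) (r : X → X)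
    (hre : ∀ (g : G) x, r (g • x) = g • r x) (a : ℕ)
    (h1 : ∀ x, π (r x) = π x)
    (h2 : ∀ x y, π x = π y → ∃ j, j < p ^ a ∧ r^[j] x = y)
    (h3 : ∀ x j j', j < p ^ a → j' < p ^ a → r^[j] x = r^[j'] x → j = j')
    (h4 : ∀ x, r^[p ^ a] x = x)
    {M : Type} [AddCommGroup M] [Module (ZMod p) M] [Module.Finite (ZMod p) M]
    (ρ : Representation (ZMod p) G M) :
    F.f (X → M) (s56ei_permM X ρ) = (p ^ a : ℕ) * F.f (Y → M) (s56ei_permM Y ρ) := by
  classical
  have hq : 0 < p ^ a := pow_pos (Fact.out : p.Prime).pos a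
  let T : Module.End (ZMod p) (X → M) := LinearMap.funLeft (ZMod p) M r
  have hTpow : ∀ (i : ℕ) (v : X → M) x, (T ^ i) v x = v (r^[i] x) := by
    intro i
    induction i with
    | zero => intro v x; simp
    | succ i ih =>
      intro v x
      rw [pow_succ, Module.End.mul_apply, ih, Function.iterate_succ_apply']
      rfl
  have hTq : T ^ (p ^ a) = 1 := by
    refine LinearMap.ext fun v => funext fun x => ?_
    rw [hTpow, h4]
    rfl
  obtain ⟨hnil, hnorm⟩ := s56ei_end_id p a T hTq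
  set τ : Module.End (ZMod p) (X → M) := T - 1 with hτdef
  have hτe : ∀ g v, τ (s56ei_permM X ρ g v) = s56ei_permM X ρ g (τ v) := by
    intro g v
    ext x
    simp only [hτdef, LinearMap.sub_apply, Module.End.one_apply, Pi.sub_apply,
      s56ei_permM_apply, map_sub]
    congr 2
    show (s56ei_permM X ρ g v) (r x) = ρ g (v (r (g⁻¹ • x)))
    rw [s56ei_permM_apply, hre]
  have hinv : ∀ v : X → M, v ∈ LinearMap.ker τ → ∀ (i : ℕ) x, v (r^[i] x) = v x := by
    intro v hv
    have hv1 : ∀ x, v (r x) = v x := fun x => by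
      have := congrFun (LinearMap.mem_ker.1 hv) x
      simp only [hτdef, LinearMap.sub_apply, Module.End.one_apply, Pi.sub_apply, Pi.zero_apply,
        sub_eq_zero] at this
      exact this
    intro i
    induction i with
    | zero => intro x; rfl
    | succ i ih => intro x; rw [Function.iterate_succ_apply', hv1, ih]
  have hπr : ∀ (i : ℕ) x, π (r^[i] x) = π x := by
    intro i
    induction i with
    | zero => intro x; rfl
    | succ i ih => intro x; rw [Function.iterate_succ_apply', h1, ih]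
  let s : Y → X := Function.surjInv hπs
  have hs : ∀ y, π (s y) = y := Function.surjInv_eq hπs
  have hker : LinearMap.ker τ ≤ LinearMap.range (τ ^ (p ^ a - 1)) := by
    intro v hv
    refine ⟨fun x => if s (π x) = x then v x else 0, ?_⟩
    rw [hnorm]
    ext x
    rw [LinearMap.sum_apply, Finset.sum_apply]
    obtain ⟨j, hj, hjx⟩ := h2 x (s (π x)) (hs (π x)).symm
    rw [Finset.sum_eq_single j]
    · rw [hTpow]
      show (if s (π (r^[j] x)) = r^[j] x then v (r^[j] x) else 0) = v x
      rw [hπr, if_pos hjx.symm, hinv v hv]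
    · intro i hi hij
      rw [hTpow]
      show (if s (π (r^[i] x)) = r^[i] x then v (r^[i] x) else 0) = 0
      rw [hπr, if_neg]
      intro h
      exact hij (h3 x i j (Finset.mem_range.1 hi) hj (h.symm.trans hjx.symm))
    · intro hj'
      exact absurd (Finset.mem_range.2 hj) hj'
  rw [s56ei_filtration F (s56ei_permM X ρ) τ hτe (p ^ a) hq hnil hker]
  congr 1
  -- ker τ ≅ (Y → M)
  symm
  let Φ : (Y → M) →ₗ[ZMod p] LinearMap.ker τ :=
    { toFun := fun u => ⟨fun x => u (π x), by
        rw [LinearMap.mem_ker]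
        ext x
        simp only [hτdef, LinearMap.sub_apply, Module.End.one_apply, Pi.sub_apply, Pi.zero_apply]
        show u (π (r x)) - u (π x) = 0
        rw [h1, sub_self]⟩
      map_add' := fun u u' => rfl
      map_smul' := fun c u => rfl }
  have hΦ : Bijective Φ := by
    constructor
    · intro u u' huu
      funext y
      obtain ⟨x, rfl⟩ := hπs y
      exact congrFun (congrArg Subtype.val huu) x
    · intro v
      refine ⟨fun y => v.1 (s y), ?_⟩
      apply Subtype.ext
      funext x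
      show v.1 (s (π x)) = v.1 x
      obtain ⟨j, _, hjx⟩ := h2 x (s (π x)) (hs (π x)).symm
      rw [← hjx, hinv v.1 v.2]
  refine s56ei_iso F _ _ (LinearEquiv.ofBijective Φ hΦ) ?_
  intro g u
  apply Subtype.ext
  funext x
  show (s56ei_permM Y ρ g u) (π x) = ρ g (u (π (g⁻¹ • x)))
  rw [s56ei_permM_apply, hπe]

/-- **Coset covering**: `H' ≤ H`, `t ∈ H` commuting with `H'`, `H = ⟨t⟩ H'`, `t^(p^a) = 1`,
`⟨t⟩ ∩ H' = 1`.  Then `F(G ⧸ H' → M) = p^a • F(G ⧸ H → M)`. -/
theorem s56ei_coset_cover [Finite G] (F : s56ei_AddFn (ZMod p) G) (H' H : Subgroup G)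
    (hle : H' ≤ H) (t : G) (a : ℕ) (hcomm : ∀ b ∈ H', t * b = b * t) (htH : t ∈ H)
    (hgen : ∀ h ∈ H, ∃ j : ℕ, ∃ b ∈ H', h = t ^ j * b) (htq : t ^ (p ^ a) = 1)
    (hfree : ∀ j : ℕ, j < p ^ a → t ^ j ∈ H' → j = 0)
    {M : Type} [AddCommGroup M] [Module (ZMod p) M] [Module.Finite (ZMod p) M]
    (ρ : Representation (ZMod p) G M) :
    F.f (G ⧸ H' → M) (s56ei_permM (G ⧸ H') ρ)
      = (p ^ a : ℕ) * F.f (G ⧸ H → M) (s56ei_permM (G ⧸ H) ρ) := by
  classical
  haveI := Fintype.ofFinite (G ⧸ H')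
  haveI := Fintype.ofFinite (G ⧸ H)
  have hq : 0 < p ^ a := pow_pos (Fact.out : p.Prime).pos a
  have hcomm' : ∀ b ∈ H', t⁻¹ * b * t = b := fun b hb => by
    rw [mul_assoc, ← hcomm b hb, ← mul_assoc, inv_mul_cancel, one_mul]
  -- right multiplication by t
  let r : G ⧸ H' → G ⧸ H' := Quotient.map' (fun x => x * t) (by
    intro x y hxy
    rw [QuotientGroup.leftRel_apply] at hxy ⊢
    have : (x * t)⁻¹ * (y * t) = t⁻¹ * (x⁻¹ * y) * t := by group
    rw [this, hcomm' _ hxy]
    exact hxy)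
  have hr : ∀ x : G, r (x : G ⧸ H') = ((x * t : G) : G ⧸ H') := fun x => rfl
  have hrpow : ∀ (j : ℕ) (x : G), r^[j] (x : G ⧸ H') = ((x * t ^ j : G) : G ⧸ H') := by
    intro j
    induction j with
    | zero => intro x; simp
    | succ j ih => intro x; rw [Function.iterate_succ_apply', ih, hr, mul_assoc, ← pow_succ]
  let π : G ⧸ H' → G ⧸ H := Subgroup.quotientMapOfLE hle
  have hπ : ∀ x : G, π (x : G ⧸ H') = (x : G ⧸ H) := fun x => rfl
  -- t ^ j depends on j mod q
  have htmod : ∀ j : ℕ, t ^ j = t ^ (j % p ^ a) := by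
    intro j
    conv_lhs => rw [← Nat.div_add_mod j (p ^ a), pow_add, pow_mul, htq, one_pow, one_mul]
  refine s56ei_cover p F π ?_ ?_ r ?_ a ?_ ?_ ?_ ?_ ρ
  · intro y
    obtain ⟨x, rfl⟩ := QuotientGroup.mk_surjective y
    exact ⟨(x : G ⧸ H'), rfl⟩
  · intro g y
    obtain ⟨x, rfl⟩ := QuotientGroup.mk_surjective y
    rfl
  · intro g y
    obtain ⟨x, rfl⟩ := QuotientGroup.mk_surjective y
    show r ((g * x : G) : G ⧸ H') = g • r (x : G ⧸ H')
    rw [hr, hr, mul_assoc]
    rfl
  · intro y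
    obtain ⟨x, rfl⟩ := QuotientGroup.mk_surjective y
    rw [hr, hπ, hπ, QuotientGroup.eq]
    have : (x * t)⁻¹ * x = t⁻¹ := by group
    rw [this]
    exact H.inv_mem htH
  · intro y z hyz
    obtain ⟨x, rfl⟩ := QuotientGroup.mk_surjective y
    obtain ⟨w, rfl⟩ := QuotientGroup.mk_surjective z
    rw [hπ, hπ, QuotientGroup.eq] at hyz
    obtain ⟨j, b, hb, hjb⟩ := hgen _ hyz
    refine ⟨j % p ^ a, Nat.mod_lt _ hq, ?_⟩
    rw [hrpow, ← htmod, QuotientGroup.eq]
    have : (x * t ^ j)⁻¹ * w = (t ^ j)⁻¹ * (x⁻¹ * w) := by group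
    rw [this, hjb, ← mul_assoc, inv_mul_cancel, one_mul]
    exact hb
  · intro y
    obtain ⟨x, rfl⟩ := QuotientGroup.mk_surjective y
    -- wlog j ≤ j'
    have key : ∀ j j' : ℕ, j ≤ j' → j' < p ^ a →
        r^[j] (x : G ⧸ H') = r^[j'] (x : G ⧸ H') → j = j' := by
      intro j j' hjj hj' h
      rw [hrpow, hrpow, QuotientGroup.eq] at h
      have h5 : (x * t ^ j)⁻¹ * (x * t ^ j') = t ^ (j' - j) := by
        have : t ^ j' = t ^ j * t ^ (j' - j) := by rw [← pow_add, Nat.add_sub_cancel' hjj]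
        rw [this]; group
      rw [h5] at h
      have := hfree (j' - j) (by omega) h
      omega
    intro j j' hj hj' h
    rcases Nat.le_total j j' with hle' | hle'
    · exact key j j' hle' hj' h
    · exact (key j' j hle' hj h.symm).symm
  · intro y
    obtain ⟨x, rfl⟩ := QuotientGroup.mk_surjective y
    rw [hrpow, htq, mul_one]

end partC

end Fermat.Agent.S56
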