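import Mathlib
import Fermat.Agent.S56.GW.EC.Ind.Final
import Fermat.Agent.S56.GW.EC.Ind.PPrime

/-!
# (EC3) [EC-IND]: the induction theorem, `p'`-form (prefix `s56ei_`)

`s56ei_main'` : the same conclusion as `s56ei_main` under the weaker hypothesis that `F` vanishes
on `coind_B^G Res_B M` for every cyclic subgroup `B` of order prime to `p` and every
finite-dimensional representation `M` of `G`.
-/

set_option autoImplicit false
set_option linter.unusedSectionVars false
set_option linter.style.haveILetI false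

namespace Fermat.Agent.S56

open Function

section cyc

variable (p : ℕ) [Fact p.Prime] {G : Type} [Group G] [Finite G]

/-- The structure of a cyclic subgroup: `p'`-part `H'` and a generator `t` of the `p`-part. -/
lemma s56ei_cyclic_split (B : Subgroup G) (hB : IsCyclic B) :
    ∃ (H' : Subgroup G) (t : G) (a : ℕ), H' ≤ B ∧ IsCyclic H' ∧ (Nat.card H').Coprime p ∧
      (∀ b ∈ H', t * b = b * t) ∧ t ∈ B ∧
      (∀ h ∈ B, ∃ j : ℕ, ∃ b ∈ H', h = t ^ j * b) ∧ t ^ (p ^ a) = 1 ∧
      (∀ j : ℕ, j < p ^ a → t ^ j ∈ H' → j = 0) := by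
  obtain ⟨g, hg⟩ := hB.exists_generator
  set c : G := (g : G) with hc
  have hcB : c ∈ B := g.2
  have hpow : ∀ h ∈ B, ∃ z : ℤ, c ^ z = h := by
    intro h hh
    obtain ⟨z, hz⟩ := Subgroup.mem_zpowers_iff.1 (hg ⟨h, hh⟩)
    refine ⟨z, ?_⟩
    have := congrArg Subtype.val hz
    simpa using this
  set n := orderOf c with hn
  have hn0 : n ≠ 0 := (orderOf_pos c).ne'
  set a := n.factorization p with ha
  set q := p ^ a with hqdef
  set m := n / p ^ a with hmdef
  have hp : p.Prime := Fact.out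
  have hq0 : 0 < q := pow_pos hp.pos a
  have hqm : q * m = n := Nat.ordProj_mul_ordCompl_eq_self n p
  have hcop : Nat.Coprime q m := Nat.Coprime.pow_left a (Nat.coprime_ordCompl hp hn0)
  refine ⟨Subgroup.zpowers (c ^ q), c ^ m, a, ?_, inferInstance, ?_, ?_, ?_, ?_, ?_, ?_⟩
  · rw [Subgroup.zpowers_le]
    exact B.pow_mem hcB q
  · rw [Nat.card_zpowers, orderOf_pow, ← hn]
    have h1 : Nat.gcd n q = q := Nat.gcd_eq_right ⟨m, hqm.symm⟩
    rw [h1]
    have h2 : n / q = m := Nat.div_eq_of_eq_mul_right hq0 hqm.symm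
    rw [h2]
    exact (Nat.coprime_ordCompl hp hn0).symm
  · intro b hb
    obtain ⟨z, rfl⟩ := Subgroup.mem_zpowers_iff.1 hb
    exact (((Commute.refl c).pow_pow m q).zpow_right z).eq
  · exact B.pow_mem hcB m
  · intro h hh
    obtain ⟨z, rfl⟩ := hpow h hh
    -- Bezout
    have hbez : (1 : ℤ) = m * Nat.gcdA m q + q * Nat.gcdB m q := by
      have := Nat.gcd_eq_gcd_ab m q
      rw [Nat.Coprime.symm hcop] at this
      exact_mod_cast this
    set e : ℤ := z * Nat.gcdA m q with he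
    set w : ℤ := z * Nat.gcdB m q with hw
    have hz : z = (m : ℤ) * e + (q : ℤ) * w := by
      rw [he, hw]
      linear_combination z * hbez
    have htq' : (c ^ m) ^ (q : ℤ) = 1 := by
      rw [zpow_natCast, ← pow_mul, mul_comm, hqm, pow_orderOf_eq_one]
    have hj0 : 0 ≤ e % (q : ℤ) := Int.emod_nonneg _ (by exact_mod_cast hq0.ne')
    refine ⟨(e % (q : ℤ)).toNat, (c ^ q) ^ w, Subgroup.zpow_mem_zpowers _ _, ?_⟩
    have h3 : (c ^ m) ^ (e % (q : ℤ)).toNat = (c ^ m) ^ e := by
      rw [← zpow_natCast, Int.toNat_of_nonneg hj0]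
      conv_rhs => rw [← Int.emod_add_mul_ediv e (q : ℤ), zpow_add, zpow_mul, htq', one_zpow,
        mul_one]
    rw [h3, ← zpow_natCast c m, ← zpow_natCast c q, ← zpow_mul, ← zpow_mul, ← zpow_add, ← hz]
  · rw [← pow_mul, mul_comm, hqm, pow_orderOf_eq_one]
  · intro j hj hmem
    obtain ⟨z, hz⟩ := Subgroup.mem_zpowers_iff.1 hmem
    have h1 : c ^ ((q : ℤ) * z - (m * j : ℕ)) = 1 := by
      rw [zpow_sub, zpow_mul, zpow_natCast, hz, zpow_natCast, ← pow_mul, mul_inv_cancel]
    have h2 : (n : ℤ) ∣ (q : ℤ) * z - (m * j : ℕ) := orderOf_dvd_iff_zpow_eq_one.2 h1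
    have h3 : (q : ℤ) ∣ (q : ℤ) * z - (m * j : ℕ) :=
      dvd_trans ⟨(m : ℤ), by exact_mod_cast hqm.symm⟩ h2
    have h4 : (q : ℤ) ∣ ((m * j : ℕ) : ℤ) := by
      have := dvd_sub (dvd_mul_right (q : ℤ) z) h3
      simpa using this
    have h5 : q ∣ m * j := by exact_mod_cast h4
    have h6 : q ∣ j := hcop.dvd_of_dvd_mul_left h5
    exact Nat.eq_zero_of_dvd_of_lt h6 hj

end cyc

section main

variable (p : ℕ) [Fact p.Prime] {G : Type} [Group G] [Finite G]

/-- The `p'`-hypothesis: `F` vanishes on `coind_B^G Res_B M` for `B` cyclic of order prime to `p`. -/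
def s56ei_CycHyp' (F : s56ei_AddFn (ZMod p) G) : Prop :=
  ∀ (B : Subgroup G), IsCyclic B → (Nat.card B).Coprime p → ∀ (M : Type) [AddCommGroup M]
    [Module (ZMod p) M] [Module.Finite (ZMod p) M] (ρ : Representation (ZMod p) G M),
    F.f _ (Representation.coind B.subtype (s56ei_res ρ B)) = 0

/-- **(EC3) [EC-IND], `p'`-form.** -/
theorem s56ei_main' (F : s56ei_AddFn (ZMod p) G) (hF : s56ei_CycHyp' p F)
    (M : Type) [AddCommGroup M] [Module (ZMod p) M] [Module.Finite (ZMod p) M]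
    (ρ : Representation (ZMod p) G M) : F.f M ρ = 0 := by
  classical
  haveI : Fintype (Subgroup G) := Fintype.ofFinite _
  obtain ⟨a, ha, hrel⟩ := s56eq_artin_fintype (G := G)
  rw [← s56ei_tens_trivial F ρ]
  refine s56ei_triv_eq_zero p (s56ei_Q2 G) a ha hrel (s56ei_tens F ρ) ?_
  intro B hB
  unfold s56ei_GSet.val
  rw [s56ei_tens_perm F ρ]
  show F.f (G ⧸ B → M) (s56ei_permM (G ⧸ B) ρ) = 0
  obtain ⟨H', t, e, hle, hcyc, hcop, hcomm, htB, hgen, htq, hfree⟩ := s56ei_cyclic_split p B hB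
  have h1 := s56ei_coset_cover p F H' B hle t e hcomm htB hgen htq hfree ρ
  rw [s56ei_frob F ρ H', hF H' hcyc hcop M ρ] at h1
  have hq : ((p ^ e : ℕ) : ℤ) ≠ 0 := by
    exact_mod_cast (pow_pos (Fact.out : p.Prime).pos e).ne'
  rcases mul_eq_zero.1 h1.symm with h | h
  · exact absurd h hq
  · exact h

/-- Corollary: the hypothesis for all representations `N` of the cyclic `p'`-subgroups. -/
theorem s56ei_main'' (F : s56ei_AddFn (ZMod p) G)
    (hF : ∀ (B : Subgroup G), IsCyclic B → (Nat.card B).Coprime p → ∀ (N : Type) [AddCommGroup N]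
      [Module (ZMod p) N] [Module.Finite (ZMod p) N] (σ : Representation (ZMod p) B N),
      F.f _ (Representation.coind B.subtype σ) = 0)
    (M : Type) [AddCommGroup M] [Module (ZMod p) M] [Module.Finite (ZMod p) M]
    (ρ : Representation (ZMod p) G M) : F.f M ρ = 0 :=
  s56ei_main' p F (fun B hB hc M _ _ _ ρ => hF B hB hc M (s56ei_res ρ B)) M ρ

end main

end Fermat.Agent.S56
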