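import Mathlib
import Fermat.Agent.S56.GW.EC.Ind.FinalP

/-!
# (EC3) [EC-IND]: formal additivity from super-additivity + symmetry (prefix `s56ei_`)

`s56ei_additive_of_sym` : let `g, g₂` be integer-valued functions on the finite-dimensional
representations of a finite group `Δ` over a field `k`, both SUPER-additive on short exact
sequences (`g M₂ ≥ g M₁ + g M₃`), with `g + g₂ ≥ 0` everywhere and `g + g₂ ≤ 0` on the free
modules `k[Fin n × Δ]`.  Then `g + g₂ = 0` and `g`, `g₂` are ADDITIVE (they are the `f`-fields of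
`s56ei_AddFn`s).  [Think of `g₂ M = g M'` for a duality `M ↦ M'`; this is the formal part of the
"additivity of the Euler characteristic without `cd ≤ 2`" argument.]

`s56ei_zero_of_sym` : if moreover `k = ZMod p` and `g` vanishes on `coind_B^Δ Res_B M` for the
cyclic subgroups `B` of order prime to `p`, then `g = 0`.
-/

set_option autoImplicit false
set_option linter.unusedSectionVars false
set_option linter.style.haveILetI false

namespace Fermat.Agent.S56

open Function

section formal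

variable {k : Type} [Field k] {Δ : Type} [Group Δ] [Finite Δ]

/-- Super-additivity of a function on finite-dimensional representations. -/
def s56ei_SuperAdd
    (g : ∀ (M : Type) [AddCommGroup M] [Module k M], Representation k Δ M → ℤ) : Prop :=
  ∀ (M₁ M₂ M₃ : Type) [AddCommGroup M₁] [Module k M₁] [AddCommGroup M₂] [Module k M₂]
    [AddCommGroup M₃] [Module k M₃] [Module.Finite k M₁] [Module.Finite k M₂] [Module.Finite k M₃]
    (ρ₁ : Representation k Δ M₁) (ρ₂ : Representation k Δ M₂) (ρ₃ : Representation k Δ M₃)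
    (i : M₁ →ₗ[k] M₂) (q : M₂ →ₗ[k] M₃), Injective i → Surjective q →
    LinearMap.range i = LinearMap.ker q →
    (∀ g' m, i (ρ₁ g' m) = ρ₂ g' (i m)) → (∀ g' m, q (ρ₂ g' m) = ρ₃ g' (q m)) →
    g M₁ ρ₁ + g M₃ ρ₃ ≤ g M₂ ρ₂

/-- The free module `k[Fin n × Δ]` with `Δ` acting by left translation on the second factor. -/
instance s56ei_freeAct (n : ℕ) : MulAction Δ (Fin n × Δ) where
  smul γ x := (x.1, γ * x.2)
  one_smul x := by
    show (x.1, 1 * x.2) = x
    rw [one_mul]
  mul_smul γ γ' x := by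
    show (x.1, γ * γ' * x.2) = (x.1, γ * (γ' * x.2))
    rw [mul_assoc]

lemma s56ei_freeAct_smul (n : ℕ) (γ : Δ) (x : Fin n × Δ) : γ • x = (x.1, γ * x.2) := rfl

/-- Every finite-dimensional representation is a quotient of a free module. -/
lemma s56ei_exists_free_cover {M : Type} [AddCommGroup M] [Module k M] [Module.Finite k M]
    (ρ : Representation k Δ M) :
    ∃ (n : ℕ) (q : (Fin n × Δ → k) →ₗ[k] M), Surjective q ∧
      ∀ γ v, q (s56ei_perm k (Fin n × Δ) γ v) = ρ γ (q v) := by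
  classical
  haveI := Fintype.ofFinite Δ
  obtain ⟨n, b, hb⟩ := Module.Finite.exists_fin (R := k) (M := M)
  let q : (Fin n × Δ → k) →ₗ[k] M :=
    { toFun := fun v => ∑ x : Fin n × Δ, v x • ρ x.2 (b x.1)
      map_add' := fun v w => by
        simp only [Pi.add_apply, add_smul, Finset.sum_add_distrib]
      map_smul' := fun c v => by
        simp only [Pi.smul_apply, smul_eq_mul, mul_smul, RingHom.id_apply, Finset.smul_sum] }
  refine ⟨n, q, ?_, ?_⟩
  · intro m
    have hm : m ∈ Submodule.span k (Set.range b) := by rw [hb]; trivial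
    obtain ⟨c, hc⟩ := (Submodule.mem_span_range_iff_exists_fun k).1 hm
    refine ⟨fun x => if x.2 = 1 then c x.1 else 0, ?_⟩
    show ∑ x : Fin n × Δ, (if x.2 = 1 then c x.1 else 0) • ρ x.2 (b x.1) = m
    rw [Fintype.sum_prod_type, ← hc]
    refine Finset.sum_congr rfl fun i _ => ?_
    rw [Finset.sum_eq_single (1 : Δ)]
    · simp
    · intro γ _ hγ
      simp [hγ]
    · intro h
      exact absurd (Finset.mem_univ _) h
  · intro γ v
    show ∑ x : Fin n × Δ, (s56ei_perm k (Fin n × Δ) γ v) x • ρ x.2 (b x.1)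
      = ρ γ (∑ x : Fin n × Δ, v x • ρ x.2 (b x.1))
    rw [map_sum]
    refine Fintype.sum_equiv (MulAction.toPerm (γ⁻¹ : Δ) : Equiv.Perm (Fin n × Δ)) _ _ ?_
    intro x
    simp only [s56ei_perm_apply, MulAction.toPerm_apply, map_smul]
    congr 1
    rw [← Module.End.mul_apply, ← map_mul, s56ei_freeAct_smul]
    simp

/-- **Formal additivity**: super-additive `g`, `g₂` with `g + g₂ ≥ 0` everywhere and `≤ 0` on free
modules are additive, and `g + g₂ = 0`. -/
theorem s56ei_additive_of_sym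
    (g g₂ : ∀ (M : Type) [AddCommGroup M] [Module k M], Representation k Δ M → ℤ)
    (hg : s56ei_SuperAdd g) (hg₂ : s56ei_SuperAdd g₂)
    (hpos : ∀ (M : Type) [AddCommGroup M] [Module k M] [Module.Finite k M]
      (ρ : Representation k Δ M), 0 ≤ g M ρ + g₂ M ρ)
    (hfree : ∀ n : ℕ, g (Fin n × Δ → k) (s56ei_perm k (Fin n × Δ))
      + g₂ (Fin n × Δ → k) (s56ei_perm k (Fin n × Δ)) ≤ 0) :
    (∀ (M : Type) [AddCommGroup M] [Module k M] [Module.Finite k M]
      (ρ : Representation k Δ M), g M ρ + g₂ M ρ = 0) ∧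
    (∃ F : s56ei_AddFn k Δ, ∀ (M : Type) [AddCommGroup M] [Module k M] [Module.Finite k M]
      (ρ : Representation k Δ M), F.f M ρ = g M ρ) := by
  classical
  haveI := Fintype.ofFinite Δ
  have hsym : ∀ (M : Type) [AddCommGroup M] [Module k M] [Module.Finite k M]
      (ρ : Representation k Δ M), g M ρ + g₂ M ρ = 0 := by
    intro M _ _ _ ρ
    obtain ⟨n, q, hq, hqe⟩ := s56ei_exists_free_cover ρ
    have hstab : ∀ γ : Δ, ∀ w ∈ LinearMap.ker q,
        s56ei_perm k (Fin n × Δ) γ w ∈ LinearMap.ker q := by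
      intro γ w hw
      rw [LinearMap.mem_ker] at hw ⊢
      rw [hqe, hw, map_zero]
    have h1 := hg (LinearMap.ker q) (Fin n × Δ → k) M
      (s56ei_sub (s56ei_perm k (Fin n × Δ)) (LinearMap.ker q) hstab) (s56ei_perm k (Fin n × Δ)) ρ
      (LinearMap.ker q).subtype q (Submodule.subtype_injective _) hq
      (Submodule.range_subtype _) (fun _ _ => rfl) hqe
    have h2 := hg₂ (LinearMap.ker q) (Fin n × Δ → k) M
      (s56ei_sub (s56ei_perm k (Fin n × Δ)) (LinearMap.ker q) hstab) (s56ei_perm k (Fin n × Δ)) ρ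
      (LinearMap.ker q).subtype q (Submodule.subtype_injective _) hq
      (Submodule.range_subtype _) (fun _ _ => rfl) hqe
    have h3 := hpos (LinearMap.ker q)
      (s56ei_sub (s56ei_perm k (Fin n × Δ)) (LinearMap.ker q) hstab)
    have h4 := hpos M ρ
    have h5 := hfree n
    linarith
  refine ⟨hsym, ⟨⟨fun M _ _ ρ => g M ρ, ?_⟩, fun M _ _ _ ρ => rfl⟩⟩
  intro M₁ M₂ M₃ _ _ _ _ _ _ _ _ _ ρ₁ ρ₂ ρ₃ i q hi hq hiq hie hqe
  have h1 := hg M₁ M₂ M₃ ρ₁ ρ₂ ρ₃ i q hi hq hiq hie hqe
  have h2 := hg₂ M₁ M₂ M₃ ρ₁ ρ₂ ρ₃ i q hi hq hiq hie hqe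
  have e1 := hsym M₁ ρ₁
  have e2 := hsym M₂ ρ₂
  have e3 := hsym M₃ ρ₃
  linarith

end formal

section zero

variable (p : ℕ) [Fact p.Prime] {Δ : Type} [Group Δ] [Finite Δ]

/-- Formal additivity + the induction theorem: if moreover `g` vanishes on the modules coinduced
from the cyclic subgroups of order prime to `p`, then `g = 0`. -/
theorem s56ei_zero_of_sym
    (g g₂ : ∀ (M : Type) [AddCommGroup M] [Module (ZMod p) M], Representation (ZMod p) Δ M → ℤ)
    (hg : s56ei_SuperAdd g) (hg₂ : s56ei_SuperAdd g₂)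
    (hpos : ∀ (M : Type) [AddCommGroup M] [Module (ZMod p) M] [Module.Finite (ZMod p) M]
      (ρ : Representation (ZMod p) Δ M), 0 ≤ g M ρ + g₂ M ρ)
    (hfree : ∀ n : ℕ, g (Fin n × Δ → ZMod p) (s56ei_perm (ZMod p) (Fin n × Δ))
      + g₂ (Fin n × Δ → ZMod p) (s56ei_perm (ZMod p) (Fin n × Δ)) ≤ 0)
    (hbase : ∀ (B : Subgroup Δ), IsCyclic B → (Nat.card B).Coprime p → ∀ (M : Type)
      [AddCommGroup M] [Module (ZMod p) M] [Module.Finite (ZMod p) M]
      (ρ : Representation (ZMod p) Δ M),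
      g _ (Representation.coind B.subtype (s56ei_res ρ B)) = 0)
    (M : Type) [AddCommGroup M] [Module (ZMod p) M] [Module.Finite (ZMod p) M]
    (ρ : Representation (ZMod p) Δ M) : g M ρ = 0 := by
  obtain ⟨-, F, hF⟩ := s56ei_additive_of_sym g g₂ hg hg₂ hpos hfree
  rw [← hF M ρ]
  refine s56ei_main' p F ?_ M ρ
  intro B hB hc M' _ _ _ ρ'
  rw [hF]
  exact hbase B hB hc M' ρ'

end zero

end Fermat.Agent.S56
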