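import Mathlib
import Fermat.Agent.S56.GW.EC.Ind.Formal

/-!
# (EC3)/[EC-FORM]: formal lemmas on super-additive functions (prefix `s56ei_`)

* `s56ei_superAdd_le_zero`, `s56ei_superAdd_iso` : a super-additive function is `≤ 0` on zero
  modules; if it vanishes on zero modules it is invariant under equivariant isomorphisms.
* `s56ei_nonneg_of_irr` : (Jordan–Hölder induction) a super-additive function which is `≥ 0` on
  the representations without non-trivial stable subspaces is `≥ 0` everywhere.
* `s56ei_exists_coind_cover` : every `M` is an equivariant quotient of `coind_⊥^Δ Res_⊥ M`.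
* `s56ei_additive_of_sym'` : variant of `s56ei_additive_of_sym` with the free modules replaced by
  the modules `coind_⊥^Δ Res_⊥ M`.
-/

set_option autoImplicit false
set_option linter.unusedSectionVars false
set_option linter.style.haveILetI false

namespace Fermat.Agent.S56

open Function

section formal

variable {k : Type} [Field k] {Δ : Type} [Group Δ]

/-- A representation without non-trivial stable subspaces (the zero module included). -/
def s56ei_Irr {M : Type} [AddCommGroup M] [Module k M] (ρ : Representation k Δ M) : Prop :=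
  ∀ N : Submodule k M, (∀ γ, ∀ n ∈ N, ρ γ n ∈ N) → N = ⊥ ∨ N = ⊤

lemma s56ei_superAdd_add
    (g g₂ : ∀ (M : Type) [AddCommGroup M] [Module k M], Representation k Δ M → ℤ)
    (hg : s56ei_SuperAdd g) (hg₂ : s56ei_SuperAdd g₂) :
    s56ei_SuperAdd (fun M _ _ ρ => g M ρ + g₂ M ρ) := by
  intro M₁ M₂ M₃ _ _ _ _ _ _ _ _ _ ρ₁ ρ₂ ρ₃ i q hi hq hiq hie hqe
  have h1 := hg M₁ M₂ M₃ ρ₁ ρ₂ ρ₃ i q hi hq hiq hie hqe
  have h2 := hg₂ M₁ M₂ M₃ ρ₁ ρ₂ ρ₃ i q hi hq hiq hie hqe
  show g M₁ ρ₁ + g₂ M₁ ρ₁ + (g M₃ ρ₃ + g₂ M₃ ρ₃) ≤ g M₂ ρ₂ + g₂ M₂ ρ₂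
  linarith

/-- A super-additive function is `≤ 0` on zero modules. -/
lemma s56ei_superAdd_le_zero
    (g : ∀ (M : Type) [AddCommGroup M] [Module k M], Representation k Δ M → ℤ)
    (hg : s56ei_SuperAdd g) (M : Type) [AddCommGroup M] [Module k M] [Subsingleton M]
    (ρ : Representation k Δ M) : g M ρ ≤ 0 := by
  haveI : Module.Finite k M := Module.Finite.of_surjective (0 : PUnit →ₗ[k] M)
    (fun b => ⟨0, Subsingleton.elim _ _⟩)
  have h := hg M M M ρ ρ ρ 0 0 (fun a b _ => Subsingleton.elim a b)
    (fun b => ⟨0, Subsingleton.elim _ _⟩)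
    (by ext x; simp [Subsingleton.elim x 0])
    (fun g m => Subsingleton.elim _ _) (fun g m => Subsingleton.elim _ _)
  linarith

/-- A super-additive function vanishing on zero modules is invariant under equivariant
isomorphisms. -/
lemma s56ei_superAdd_iso
    (g : ∀ (M : Type) [AddCommGroup M] [Module k M], Representation k Δ M → ℤ)
    (hg : s56ei_SuperAdd g)
    (h0 : ∀ (M : Type) [AddCommGroup M] [Module k M] [Subsingleton M]
      (ρ : Representation k Δ M), g M ρ = 0)
    {M M' : Type} [AddCommGroup M] [Module k M] [AddCommGroup M'] [Module k M']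
    [Module.Finite k M] (ρ : Representation k Δ M) (ρ' : Representation k Δ M')
    (e : M ≃ₗ[k] M') (he : ∀ γ m, e (ρ γ m) = ρ' γ (e m)) : g M ρ = g M' ρ' := by
  haveI : Module.Finite k M' := Module.Finite.equiv e
  have key : ∀ {N N' : Type} [AddCommGroup N] [Module k N] [AddCommGroup N'] [Module k N']
      [Module.Finite k N] [Module.Finite k N'] (σ : Representation k Δ N)
      (σ' : Representation k Δ N') (e : N ≃ₗ[k] N') (_ : ∀ γ m, e (σ γ m) = σ' γ (e m)),
      g N σ ≤ g N' σ' := by
    intro N N' _ _ _ _ _ _ σ σ' e he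
    have h := hg N N' PUnit σ σ' (1 : Δ →* (PUnit →ₗ[k] PUnit)) e.toLinearMap 0 e.injective
      (fun b => ⟨0, Subsingleton.elim _ _⟩)
      (by
        ext x
        simp only [LinearMap.mem_range, LinearEquiv.coe_coe, LinearMap.mem_ker,
          LinearMap.zero_apply, iff_true]
        exact ⟨e.symm x, by simp⟩)
      he (fun g m => Subsingleton.elim _ _)
    rw [h0 PUnit, add_zero] at h
    exact h
  refine le_antisymm (key ρ ρ' e he) (key ρ' ρ e.symm ?_)
  intro γ m
  apply e.injective
  rw [he]
  simp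

/-- **Jordan–Hölder induction**: a super-additive function which is `≥ 0` on the representations
without non-trivial stable subspaces is `≥ 0` on all finite-dimensional representations. -/
theorem s56ei_nonneg_of_irr
    (s : ∀ (M : Type) [AddCommGroup M] [Module k M], Representation k Δ M → ℤ)
    (hs : s56ei_SuperAdd s)
    (hirr : ∀ (M : Type) [AddCommGroup M] [Module k M] [Module.Finite k M]
      (ρ : Representation k Δ M), s56ei_Irr ρ → 0 ≤ s M ρ)
    (M : Type) [AddCommGroup M] [Module k M] [Module.Finite k M]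
    (ρ : Representation k Δ M) : 0 ≤ s M ρ := by
  classical
  have main : ∀ (n : ℕ) (M : Type) [AddCommGroup M] [Module k M] [Module.Finite k M]
      (ρ : Representation k Δ M), Module.finrank k M = n → 0 ≤ s M ρ := by
    intro n
    induction n using Nat.strong_induction_on with
    | _ n ih =>
      intro M _ _ _ ρ hn
      by_cases hI : s56ei_Irr ρ
      · exact hirr M ρ hI
      · unfold s56ei_Irr at hI
        push Not at hI
        obtain ⟨N, hN, hbot, htop⟩ := hI
        have h1 : Module.finrank k N < n := by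
          rw [← hn]
          exact Submodule.finrank_lt htop
        have h2 : Module.finrank k (M ⧸ N) < n := by
          rw [← hn]
          have h3 := Submodule.finrank_quotient_add_finrank N
          have h4 : 0 < Module.finrank k N := by
            rw [Module.finrank_pos_iff]
            exact Submodule.nontrivial_iff_ne_bot.2 hbot
          omega
        have e1 := ih _ h1 N (s56ei_sub ρ N hN) rfl
        have e2 := ih _ h2 (M ⧸ N) (s56ei_quot ρ N hN) rfl
        have h := hs N M (M ⧸ N) (s56ei_sub ρ N hN) ρ (s56ei_quot ρ N hN) N.subtype N.mkQ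
          (Submodule.subtype_injective _) (Submodule.mkQ_surjective _)
          (by rw [Submodule.range_subtype, Submodule.ker_mkQ]) (fun _ _ => rfl) (fun _ _ => rfl)
        linarith
  exact main _ M ρ rfl

variable [Finite Δ]

/-- Every finite-dimensional representation `M` is an equivariant quotient of
`coind_⊥^Δ Res_⊥ M`. -/
lemma s56ei_exists_coind_cover {M : Type} [AddCommGroup M] [Module k M]
    (ρ : Representation k Δ M) :
    ∃ q : Representation.coindV (⊥ : Subgroup Δ).subtype (s56ei_res ρ ⊥) →ₗ[k] M,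
      Surjective q ∧ ∀ γ v, q (Representation.coind (⊥ : Subgroup Δ).subtype (s56ei_res ρ ⊥) γ v)
        = ρ γ (q v) := by
  classical
  haveI := Fintype.ofFinite Δ
  let q : Representation.coindV (⊥ : Subgroup Δ).subtype (s56ei_res ρ ⊥) →ₗ[k] M :=
    { toFun := fun v => ∑ x : Δ, ρ x⁻¹ (v.1 x)
      map_add' := fun v w => by
        simp only [Submodule.coe_add, Pi.add_apply, map_add, Finset.sum_add_distrib]
      map_smul' := fun c v => by
        simp only [Submodule.coe_smul, Pi.smul_apply, map_smul, RingHom.id_apply,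
          Finset.smul_sum] }
  refine ⟨q, ?_, ?_⟩
  · intro m
    refine ⟨⟨fun x => if x = 1 then m else 0, ?_⟩, ?_⟩
    · intro b x
      have hb : (b : Δ) = 1 := Subgroup.mem_bot.1 b.2
      simp only [Subgroup.subtype_apply, hb, one_mul, s56ei_res_apply, map_one,
        Module.End.one_apply]
    · show ∑ x : Δ, ρ x⁻¹ (if x = 1 then m else 0) = m
      rw [Finset.sum_eq_single (1 : Δ)]
      · simp
      · intro x _ hx
        simp [hx]
      · intro h
        exact absurd (Finset.mem_univ _) h
  · intro γ v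
    show ∑ x : Δ, ρ x⁻¹ ((Representation.coind (⊥ : Subgroup Δ).subtype (s56ei_res ρ ⊥) γ v).1 x)
      = ρ γ (∑ x : Δ, ρ x⁻¹ (v.1 x))
    rw [map_sum]
    refine Fintype.sum_equiv (Equiv.mulRight γ) _ _ ?_
    intro x
    simp only [Representation.coind_apply, Equiv.coe_mulRight]
    rw [← Module.End.mul_apply, ← map_mul]
    congr 2
    group

/-- Variant of `s56ei_additive_of_sym`: super-additive `g`, `g₂` with `g + g₂ ≥ 0` everywhere and
`≤ 0` on the modules `coind_⊥^Δ Res_⊥ M` are additive, and `g + g₂ = 0`. -/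
theorem s56ei_additive_of_sym'
    (g g₂ : ∀ (M : Type) [AddCommGroup M] [Module k M], Representation k Δ M → ℤ)
    (hg : s56ei_SuperAdd g) (hg₂ : s56ei_SuperAdd g₂)
    (hpos : ∀ (M : Type) [AddCommGroup M] [Module k M] [Module.Finite k M]
      (ρ : Representation k Δ M), 0 ≤ g M ρ + g₂ M ρ)
    (hfree : ∀ (M : Type) [AddCommGroup M] [Module k M] [Module.Finite k M]
      (ρ : Representation k Δ M),
      g _ (Representation.coind (⊥ : Subgroup Δ).subtype (s56ei_res ρ ⊥))
        + g₂ _ (Representation.coind (⊥ : Subgroup Δ).subtype (s56ei_res ρ ⊥)) ≤ 0) :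
    (∀ (M : Type) [AddCommGroup M] [Module k M] [Module.Finite k M]
      (ρ : Representation k Δ M), g M ρ + g₂ M ρ = 0) ∧
    (∃ F : s56ei_AddFn k Δ, ∀ (M : Type) [AddCommGroup M] [Module k M] [Module.Finite k M]
      (ρ : Representation k Δ M), F.f M ρ = g M ρ) := by
  classical
  have hsym : ∀ (M : Type) [AddCommGroup M] [Module k M] [Module.Finite k M]
      (ρ : Representation k Δ M), g M ρ + g₂ M ρ = 0 := by
    intro M _ _ _ ρ
    obtain ⟨q, hq, hqe⟩ := s56ei_exists_coind_cover ρ
    set P := Representation.coind (⊥ : Subgroup Δ).subtype (s56ei_res ρ ⊥) with hP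
    have hstab : ∀ γ : Δ, ∀ w ∈ LinearMap.ker q, P γ w ∈ LinearMap.ker q := by
      intro γ w hw
      rw [LinearMap.mem_ker] at hw ⊢
      rw [hqe, hw, map_zero]
    have h1 := hg (LinearMap.ker q) _ M (s56ei_sub P (LinearMap.ker q) hstab) P ρ
      (LinearMap.ker q).subtype q (Submodule.subtype_injective _) hq
      (Submodule.range_subtype _) (fun _ _ => rfl) hqe
    have h2 := hg₂ (LinearMap.ker q) _ M (s56ei_sub P (LinearMap.ker q) hstab) P ρ
      (LinearMap.ker q).subtype q (Submodule.subtype_injective _) hq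
      (Submodule.range_subtype _) (fun _ _ => rfl) hqe
    have h3 := hpos (LinearMap.ker q) (s56ei_sub P (LinearMap.ker q) hstab)
    have h4 := hpos M ρ
    have h5 := hfree M ρ
    linarith
  refine ⟨hsym, ⟨⟨fun M _ _ ρ => g M ρ, ?_⟩, fun M _ _ _ ρ => rfl⟩⟩
  intro M₁ M₂ M₃ _ _ _ _ _ _ _ _ _ ρ₁ ρ₂ ρ₃ i q hi hq hiq hie hqe
  have h1 := hg M₁ M₂ M₃ ρ₁ ρ₂ ρ₃ i q hi hq hiq hie hqe
  have h2 := hg₂ M₁ M₂ M₃ ρ₁ ρ₂ ρ₃ i q hi hq hiq hie hqe
  have e1 := hsym M₁ ρ₁
  have e2 := hsym M₂ ρ₂
  have e3 := hsym M₃ ρ₃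
  linarith

end formal

end Fermat.Agent.S56
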