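import Mathlib
import Fermat.Prelude.Def_GroupCohomology_Selmer
import Fermat.Agent.S56.GW.EC.Ind.FormJH

/-!
# (EC3)/[EC-FORM]: the twisted dual `ρ.dual.twist χ` in the formal setting (prefix `s56ei_`)

For a finite-dimensional representation `ρ` of `Δ` on `M` over a field `k` and a character
`χ : Δ →* kˣ`, the twisted dual is `ρ.dual.twist χ` on `Module.Dual k M` (this is LITERALLY the
representation underlying `Rep.dualTwist`).

* `s56ei_superAdd_dual` : `f` super-additive ⟹ `M ↦ f (M')` super-additive.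
* `s56ei_evalEquiv_equivariant` : `M ≅ M''`.
* `s56ei_piDual` : `(X → M)' ≅ (X → M')` for the representations `s56ei_permM`.
* `s56ei_irr_of_inv_ne_bot`, `s56ei_irr_of_dualinv_ne_bot` : an irreducible `T` with `T^Δ ≠ 0`
  is the trivial representation `k`; one with `(T')^Δ ≠ 0` is `k'`.
* `s56ei_dual_nonneg` : (A) + (B) + (B+) ⟹ `f M + f M' ≥ 0` for all `M`.
-/

set_option autoImplicit false
set_option linter.unusedSectionVars false
set_option linter.style.haveILetI false

namespace Fermat.Agent.S56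

open Function Module

section dual

variable {k : Type} [Field k] {Δ : Type} [Group Δ] (χ : Δ →* kˣ)

lemma s56ei_dt_apply {M : Type} [AddCommGroup M] [Module k M] (ρ : Representation k Δ M)
    (γ : Δ) (φ : Module.Dual k M) (m : M) :
    (ρ.dual.twist χ) γ φ m = (χ γ : k) * φ (ρ γ⁻¹ m) := rfl

/-- If `f` is super-additive then so is `M ↦ f (M')`. -/
lemma s56ei_superAdd_dual
    (f : ∀ (M : Type) [AddCommGroup M] [Module k M], Representation k Δ M → ℤ)
    (hf : s56ei_SuperAdd f) :
    s56ei_SuperAdd (fun M _ _ ρ => f (Module.Dual k M) (ρ.dual.twist χ)) := by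
  intro M₁ M₂ M₃ _ _ _ _ _ _ _ _ _ ρ₁ ρ₂ ρ₃ i q hi hq hiq hie hqe
  have h := hf (Module.Dual k M₃) (Module.Dual k M₂) (Module.Dual k M₁) (ρ₃.dual.twist χ)
    (ρ₂.dual.twist χ) (ρ₁.dual.twist χ) q.dualMap i.dualMap
    (LinearMap.dualMap_injective_of_surjective hq) (LinearMap.dualMap_surjective_of_injective hi)
    (by rw [LinearMap.range_dualMap_eq_dualAnnihilator_ker,
      LinearMap.ker_dualMap_eq_dualAnnihilator_range, hiq])
    (by
      intro γ φ
      ext m
      simp only [LinearMap.dualMap_apply, s56ei_dt_apply, hqe])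
    (by
      intro γ φ
      ext m
      simp only [LinearMap.dualMap_apply, s56ei_dt_apply, hie])
  show f (Module.Dual k M₁) (ρ₁.dual.twist χ) + f (Module.Dual k M₃) (ρ₃.dual.twist χ)
    ≤ f (Module.Dual k M₂) (ρ₂.dual.twist χ)
  linarith

/-- The evaluation isomorphism `M ≅ M''` is equivariant. -/
lemma s56ei_evalEquiv_equivariant {M : Type} [AddCommGroup M] [Module k M] [Module.Finite k M]
    (ρ : Representation k Δ M) (γ : Δ) (m : M) :
    Module.evalEquiv k M (ρ γ m)
      = ((ρ.dual.twist χ).dual.twist χ) γ (Module.evalEquiv k M m) := by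
  ext φ
  rw [s56ei_dt_apply]
  simp only [Module.evalEquiv_apply, Module.Dual.eval_apply, s56ei_dt_apply, inv_inv]
  rw [← mul_assoc, ← Units.val_mul, ← map_mul, mul_inv_cancel, map_one, Units.val_one, one_mul]

/-- `(X → M)' ≅ (X → M')` equivariantly. -/
lemma s56ei_piDual {M : Type} [AddCommGroup M] [Module k M] (ρ : Representation k Δ M)
    (X : Type) [Fintype X] [MulAction Δ X] :
    ∃ e : (X → Module.Dual k M) ≃ₗ[k] Module.Dual k (X → M),
      ∀ γ ψ, e (s56ei_permM X (ρ.dual.twist χ) γ ψ)
        = ((s56ei_permM X ρ).dual.twist χ) γ (e ψ) := by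
  classical
  refine ⟨LinearMap.lsum k (fun _ : X => M) k, ?_⟩
  intro γ ψ
  refine LinearMap.ext fun v => ?_
  rw [s56ei_dt_apply]
  simp only [LinearMap.lsum_apply, LinearMap.sum_apply, LinearMap.coe_comp,
    LinearMap.coe_proj, Function.comp_apply, Function.eval, s56ei_permM_apply, s56ei_dt_apply]
  rw [Finset.mul_sum]
  refine Fintype.sum_equiv (MulAction.toPerm (γ⁻¹ : Δ) : Equiv.Perm X) _ _ ?_
  intro x
  simp only [MulAction.toPerm_apply, inv_inv, smul_inv_smul]

/-- An irreducible representation with non-zero invariants is the trivial representation `k`. -/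
lemma s56ei_irr_of_inv_ne_bot {M : Type} [AddCommGroup M] [Module k M]
    (ρ : Representation k Δ M) (hI : s56ei_Irr ρ) (h : Representation.invariants ρ ≠ ⊥) :
    ∃ e : k ≃ₗ[k] M, ∀ γ c, e (Representation.trivial k Δ k γ c) = ρ γ (e c) := by
  obtain ⟨m, hm, hm0⟩ := Submodule.exists_mem_ne_zero_of_ne_bot h
  have hinv : ∀ γ, ρ γ m = m := fun γ => (Representation.mem_invariants ρ m).1 hm γ
  have hstab : ∀ γ, ∀ n ∈ Submodule.span k {m}, ρ γ n ∈ Submodule.span k {m} := by
    intro γ n hn
    obtain ⟨c, rfl⟩ := Submodule.mem_span_singleton.1 hn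
    rw [map_smul, hinv]
    exact Submodule.smul_mem _ _ (Submodule.mem_span_singleton_self m)
  have htop : Submodule.span k {m} = ⊤ := by
    rcases hI _ hstab with h1 | h1
    · exact absurd (Submodule.span_singleton_eq_bot.1 h1) hm0
    · exact h1
  refine ⟨(LinearEquiv.toSpanNonzeroSingleton k M m hm0).trans
    ((LinearEquiv.ofEq _ _ htop).trans Submodule.topEquiv), ?_⟩
  intro γ c
  simp only [Representation.trivial_apply, LinearEquiv.trans_apply, Submodule.topEquiv_apply,
    LinearEquiv.coe_ofEq_apply, LinearEquiv.toSpanNonzeroSingleton_apply, map_smul, hinv]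

/-- An irreducible representation whose twisted dual has non-zero invariants is `k'`. -/
lemma s56ei_irr_of_dualinv_ne_bot {M : Type} [AddCommGroup M] [Module k M]
    (ρ : Representation k Δ M) (hI : s56ei_Irr ρ)
    (h : Representation.invariants (ρ.dual.twist χ) ≠ ⊥) :
    ∃ e : M ≃ₗ[k] Module.Dual k k, ∀ γ m, e (ρ γ m)
      = ((Representation.trivial k Δ k).dual.twist χ) γ (e m) := by
  obtain ⟨φ, hφ, hφ0⟩ := Submodule.exists_mem_ne_zero_of_ne_bot h
  have hinv : ∀ γ m, φ (ρ γ m) = (χ γ : k) * φ m := by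
    intro γ m
    have h1 := (Representation.mem_invariants _ φ).1 hφ γ⁻¹
    have h2 := LinearMap.congr_fun h1 m
    rw [s56ei_dt_apply, inv_inv] at h2
    rw [← h2, ← mul_assoc, ← Units.val_mul, ← map_mul, mul_inv_cancel, map_one, Units.val_one,
      one_mul]
  have hstab : ∀ γ, ∀ n ∈ LinearMap.ker φ, ρ γ n ∈ LinearMap.ker φ := by
    intro γ n hn
    rw [LinearMap.mem_ker] at hn ⊢
    rw [hinv, hn, mul_zero]
  have hker : LinearMap.ker φ = ⊥ := by
    rcases hI _ hstab with h1 | h1
    · exact h1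
    · exact absurd (LinearMap.ker_eq_top.1 h1) hφ0
  obtain ⟨m₀, hm₀⟩ : ∃ m₀, φ m₀ ≠ 0 := by
    by_contra hcon
    push Not at hcon
    exact hφ0 (LinearMap.ext hcon)
  let e₀ : M →ₗ[k] Module.Dual k k := (LinearMap.lsmul k k) ∘ₗ φ
  have he₀ : ∀ m c, e₀ m c = φ m * c := fun m c => rfl
  have hbij : Bijective e₀ := by
    constructor
    · intro m m' hmm
      have h1 := LinearMap.congr_fun hmm 1
      rw [he₀, he₀, mul_one, mul_one] at h1
      exact LinearMap.ker_eq_bot.1 hker h1
    · intro ψ
      refine ⟨(ψ 1 / φ m₀) • m₀, ?_⟩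
      ext
      rw [he₀, map_smul, smul_eq_mul, div_mul_cancel₀ _ hm₀, mul_one]
  refine ⟨LinearEquiv.ofBijective e₀ hbij, ?_⟩
  intro γ m
  ext
  rw [s56ei_dt_apply]
  simp only [LinearEquiv.ofBijective_apply, he₀, hinv, Representation.trivial_apply, mul_one]

/-- (A) + (B) + (B+) ⟹ `f M + f M' ≥ 0` for every finite-dimensional `M`; moreover `f` vanishes
on zero modules. -/
theorem s56ei_dual_nonneg
    (f : ∀ (M : Type) [AddCommGroup M] [Module k M], Representation k Δ M → ℤ)
    (hA : s56ei_SuperAdd f)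
    (hB : ∀ (M : Type) [AddCommGroup M] [Module k M] [Module.Finite k M]
      (ρ : Representation k Δ M),
      -(finrank k (Representation.invariants ρ) : ℤ)
        - (finrank k (Representation.invariants (ρ.dual.twist χ)) : ℤ)
        ≤ f M ρ + f (Module.Dual k M) (ρ.dual.twist χ))
    (hB1 : 0 ≤ f k (Representation.trivial k Δ k)
      + f (Module.Dual k k) ((Representation.trivial k Δ k).dual.twist χ)) :
    (∀ (M : Type) [AddCommGroup M] [Module k M] [Subsingleton M]
      (ρ : Representation k Δ M), f M ρ = 0) ∧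
    (∀ (M : Type) [AddCommGroup M] [Module k M] [Subsingleton M]
      (ρ : Representation k Δ M), f (Module.Dual k M) (ρ.dual.twist χ) = 0) ∧
    (∀ (M : Type) [AddCommGroup M] [Module k M] [Module.Finite k M]
      (ρ : Representation k Δ M), 0 ≤ f M ρ + f (Module.Dual k M) (ρ.dual.twist χ)) := by
  have h00 : ∀ (M : Type) [AddCommGroup M] [Module k M] [Subsingleton M]
      (ρ : Representation k Δ M), f M ρ = 0 ∧ f (Module.Dual k M) (ρ.dual.twist χ) = 0 := by
    intro M _ _ _ ρ
    haveI : Module.Finite k M := Module.Finite.of_surjective (0 : PUnit →ₗ[k] M)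
      (fun b => ⟨0, Subsingleton.elim _ _⟩)
    haveI : Subsingleton (Module.Dual k M) :=
      ⟨fun a b => LinearMap.ext fun m => by rw [Subsingleton.elim m 0, map_zero, map_zero]⟩
    have h1 := s56ei_superAdd_le_zero f hA M ρ
    have h2 := s56ei_superAdd_le_zero f hA (Module.Dual k M) (ρ.dual.twist χ)
    have h3 := hB M ρ
    rw [Module.finrank_zero_of_subsingleton, Module.finrank_zero_of_subsingleton] at h3
    simp only [Nat.cast_zero, neg_zero, sub_zero] at h3
    constructor <;> linarith
  have h0 := fun (M : Type) [AddCommGroup M] [Module k M] [Subsingleton M]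
      (ρ : Representation k Δ M) => (h00 M ρ).1
  have h0' := fun (M : Type) [AddCommGroup M] [Module k M] [Subsingleton M]
      (ρ : Representation k Δ M) => (h00 M ρ).2
  refine ⟨h0, h0', ?_⟩
  have hA' := s56ei_superAdd_dual χ f hA
  intro M _ _ _ ρ
  refine s56ei_nonneg_of_irr (fun M _ _ ρ => f M ρ + f (Module.Dual k M) (ρ.dual.twist χ))
    (s56ei_superAdd_add f _ hA hA') ?_ M ρ
  intro T _ _ _ τ hI
  show 0 ≤ f T τ + f (Module.Dual k T) (τ.dual.twist χ)
  by_cases h1 : Representation.invariants τ = ⊥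
  · by_cases h2 : Representation.invariants (τ.dual.twist χ) = ⊥
    · have h3 := hB T τ
      rw [h1, h2, finrank_bot] at h3
      simpa using h3
    · obtain ⟨e, he⟩ := s56ei_irr_of_dualinv_ne_bot χ τ hI h2
      have e1 := s56ei_superAdd_iso f hA h0 τ _ e he
      have e2 := s56ei_superAdd_iso _ hA' h0' τ _ e he
      have e3 := s56ei_superAdd_iso f hA h0 (Representation.trivial k Δ k) _
        (Module.evalEquiv k k) (s56ei_evalEquiv_equivariant χ _)
      rw [e1, e2, ← e3]
      linarith
  · obtain ⟨e, he⟩ := s56ei_irr_of_inv_ne_bot τ hI h1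
    have e1 := s56ei_superAdd_iso f hA h0 _ τ e he
    have e2 := s56ei_superAdd_iso _ hA' h0' _ τ e he
    rw [← e1, ← e2]
    exact hB1

end dual

end Fermat.Agent.S56
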