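import Mathlib
import Fermat.Prelude.Def_GroupCohomology_Selmer
import Fermat.Agent.S56.GW.EC.Ind.FormDual

/-!
# [EC-FORM]: the formal theorem behind the global Euler characteristic formula (prefix `s56ei_`)

`s56ei_form` : let `Δ` be a finite group, `χ : Δ →* (ZMod p)ˣ` a character, and `f` an integer
valued function on the finite `F_p[Δ]`-modules such that
* (A) `f` is super-additive on short exact sequences,
* (B) `f M + f M' ≥ - h⁰(M) - h⁰(M')`, where `M' = ρ.dual.twist χ` is the twisted dual,
* (B+) `f (F_p) + f (F_p') ≥ 0`,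
* (C≤) `f (coind_B^Δ Res_B M) ≤ 0` for the cyclic subgroups `B` of order prime to `p`.
Then `f = 0`.
-/

set_option autoImplicit false
set_option linter.unusedSectionVars false
set_option linter.style.haveILetI false

namespace Fermat.Agent.S56

open Function Module

section frobdual

variable {k : Type} [Field k] {G : Type} [Group G]

/-- Equivariance of `s56ei_frobMap`. -/
lemma s56ei_frobMap_equivariant {M : Type} [AddCommGroup M] [Module k M]
    (ρ : Representation k G M) (B : Subgroup G) (g : G) (v : G ⧸ B → M) :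
    s56ei_frobMap ρ B (s56ei_permM (G ⧸ B) ρ g v)
      = Representation.coind B.subtype (s56ei_res ρ B) g (s56ei_frobMap ρ B v) := by
  apply Subtype.ext
  funext h
  simp only [s56ei_frobMap_apply, s56ei_permM_apply, Representation.coind_apply]
  show _ = (s56ei_frobMap ρ B v).1 (h * g)
  rw [s56ei_frobMap_apply, map_mul, Module.End.mul_apply]
  congr 2
  rw [mul_inv_rev]
  rfl

/-- `f (G ⧸ B → N) = f (coind_B^G Res_B N)` for a super-additive `f` vanishing on zero modules. -/
lemma s56ei_frob_superAdd [Finite G]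
    (f : ∀ (M : Type) [AddCommGroup M] [Module k M], Representation k G M → ℤ)
    (hA : s56ei_SuperAdd f)
    (h0 : ∀ (M : Type) [AddCommGroup M] [Module k M] [Subsingleton M]
      (ρ : Representation k G M), f M ρ = 0)
    (B : Subgroup G) {N : Type} [AddCommGroup N] [Module k N] [Module.Finite k N]
    (σ : Representation k G N) :
    f (G ⧸ B → N) (s56ei_permM (G ⧸ B) σ)
      = f (Representation.coindV B.subtype (s56ei_res σ B))
        (Representation.coind B.subtype (s56ei_res σ B)) := by
  haveI := Fintype.ofFinite (G ⧸ B)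
  exact s56ei_superAdd_iso f hA h0 (s56ei_permM (G ⧸ B) σ)
    (Representation.coind B.subtype (s56ei_res σ B))
    (LinearEquiv.ofBijective (s56ei_frobMap σ B) (s56ei_frobMap_bijective σ B))
    (fun g v => s56ei_frobMap_equivariant σ B g v)

variable [Finite G] (χ : G →* kˣ)

/-- `f ((coind_B Res_B M)') = f (coind_B Res_B (M'))` for a super-additive `f` vanishing on zero
modules. -/
lemma s56ei_coind_dual
    (f : ∀ (M : Type) [AddCommGroup M] [Module k M], Representation k G M → ℤ)
    (hA : s56ei_SuperAdd f)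
    (h0 : ∀ (M : Type) [AddCommGroup M] [Module k M] [Subsingleton M]
      (ρ : Representation k G M), f M ρ = 0)
    (h0' : ∀ (M : Type) [AddCommGroup M] [Module k M] [Subsingleton M]
      (ρ : Representation k G M), f (Module.Dual k M) (ρ.dual.twist χ) = 0)
    (B : Subgroup G) {M : Type} [AddCommGroup M] [Module k M] [Module.Finite k M]
    (ρ : Representation k G M) :
    f (Module.Dual k (Representation.coindV B.subtype (s56ei_res ρ B)))
        ((Representation.coind B.subtype (s56ei_res ρ B)).dual.twist χ)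
      = f (Representation.coindV B.subtype (s56ei_res (ρ.dual.twist χ) B))
        (Representation.coind B.subtype (s56ei_res (ρ.dual.twist χ) B)) := by
  classical
  haveI := Fintype.ofFinite (G ⧸ B)
  have hA' := s56ei_superAdd_dual χ f hA
  have e1 : f (Module.Dual k (G ⧸ B → M)) ((s56ei_permM (G ⧸ B) ρ).dual.twist χ)
      = f (Module.Dual k (Representation.coindV B.subtype (s56ei_res ρ B)))
        ((Representation.coind B.subtype (s56ei_res ρ B)).dual.twist χ) :=
    s56ei_frob_superAdd (fun M _ _ ρ => f (Module.Dual k M) (ρ.dual.twist χ)) hA' h0' B ρ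
  obtain ⟨e, he⟩ := s56ei_piDual χ ρ (G ⧸ B)
  have e2 : f (G ⧸ B → Module.Dual k M) (s56ei_permM (G ⧸ B) (ρ.dual.twist χ))
      = f (Module.Dual k (G ⧸ B → M)) ((s56ei_permM (G ⧸ B) ρ).dual.twist χ) :=
    s56ei_superAdd_iso f hA h0 (s56ei_permM (G ⧸ B) (ρ.dual.twist χ))
      ((s56ei_permM (G ⧸ B) ρ).dual.twist χ) e he
  have e3 : f (G ⧸ B → Module.Dual k M) (s56ei_permM (G ⧸ B) (ρ.dual.twist χ))
      = f (Representation.coindV B.subtype (s56ei_res (ρ.dual.twist χ) B))
        (Representation.coind B.subtype (s56ei_res (ρ.dual.twist χ) B)) :=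
    s56ei_frob_superAdd f hA h0 B (ρ.dual.twist χ)
  rw [← e1, ← e3, e2]

end frobdual

section main

variable (p : ℕ) [Fact p.Prime] {Δ : Type} [Group Δ] [Finite Δ] (χ : Δ →* (ZMod p)ˣ)

/-- **[EC-FORM]**: (A) + (B) + (B+) + (C≤) ⟹ `f = 0`. -/
theorem s56ei_form
    (f : ∀ (M : Type) [AddCommGroup M] [Module (ZMod p) M], Representation (ZMod p) Δ M → ℤ)
    (hA : s56ei_SuperAdd f)
    (hB : ∀ (M : Type) [AddCommGroup M] [Module (ZMod p) M] [Module.Finite (ZMod p) M]
      (ρ : Representation (ZMod p) Δ M),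
      -(finrank (ZMod p) (Representation.invariants ρ) : ℤ)
        - (finrank (ZMod p) (Representation.invariants (ρ.dual.twist χ)) : ℤ)
        ≤ f M ρ + f (Module.Dual (ZMod p) M) (ρ.dual.twist χ))
    (hB1 : 0 ≤ f (ZMod p) (Representation.trivial (ZMod p) Δ (ZMod p))
      + f (Module.Dual (ZMod p) (ZMod p))
          ((Representation.trivial (ZMod p) Δ (ZMod p)).dual.twist χ))
    (hC : ∀ (B : Subgroup Δ), IsCyclic B → (Nat.card B).Coprime p → ∀ (M : Type)
      [AddCommGroup M] [Module (ZMod p) M] [Module.Finite (ZMod p) M]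
      (ρ : Representation (ZMod p) Δ M),
      f _ (Representation.coind B.subtype (s56ei_res ρ B)) ≤ 0)
    (M : Type) [AddCommGroup M] [Module (ZMod p) M] [Module.Finite (ZMod p) M]
    (ρ : Representation (ZMod p) Δ M) : f M ρ = 0 := by
  obtain ⟨h0, h0', hpos⟩ := s56ei_dual_nonneg χ f hA hB hB1
  have hA' := s56ei_superAdd_dual χ f hA
  have hC' : ∀ (B : Subgroup Δ), IsCyclic B → (Nat.card B).Coprime p → ∀ (M : Type)
      [AddCommGroup M] [Module (ZMod p) M] [Module.Finite (ZMod p) M]
      (ρ : Representation (ZMod p) Δ M),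
      f (Module.Dual (ZMod p) (Representation.coindV B.subtype (s56ei_res ρ B)))
        ((Representation.coind B.subtype (s56ei_res ρ B)).dual.twist χ) ≤ 0 := by
    intro B hB hc M _ _ _ ρ
    rw [s56ei_coind_dual χ f hA h0 h0' B ρ]
    exact hC B hB hc (Module.Dual (ZMod p) M) (ρ.dual.twist χ)
  have hbot : IsCyclic (⊥ : Subgroup Δ) := inferInstance
  have hbotc : (Nat.card (⊥ : Subgroup Δ)).Coprime p := by
    rw [Subgroup.card_bot]
    exact Nat.coprime_one_left p
  obtain ⟨hsym, F, hF⟩ := s56ei_additive_of_sym' f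
    (fun M _ _ ρ => f (Module.Dual (ZMod p) M) (ρ.dual.twist χ)) hA hA' hpos
    (fun M _ _ _ ρ => add_nonpos (hC ⊥ hbot hbotc M ρ) (hC' ⊥ hbot hbotc M ρ))
  rw [← hF M ρ]
  refine s56ei_main' p F ?_ M ρ
  intro B hB hc N _ _ _ σ
  rw [hF]
  have h1 := hsym _ (Representation.coind B.subtype (s56ei_res σ B))
  have h2 := hC B hB hc N σ
  have h3 := hC' B hB hc N σ
  linarith

end main

end Fermat.Agent.S56
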